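/-
GATE-F (S40/S44) / node GF-KCOVER-INST-COMPL, file 1 (helper19): **the completion of a valued field:
density, extension of valuation-preserving automorphisms, sequential completeness.**  Mathlib only.

`F` a field with `[hv : Valued F Γ₀]`, `L := UniformSpace.Completion F` with Mathlib's
`Valued.valuedCompletion` (`Valued.v (x : L) = hv.v x`).

* `exists_approx`        : `∀ z : L`, `∀ c ≠ 0` in `F`, `∃ b : F`, `v (z - b) < v c`;
* `continuous_of_val_eq` : a ring endomorphism `σ` of `F` with `v ∘ σ = v` is continuous;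
* `extHom σ hσ : L →+* L`, `extHom_coe`, `val_extHom` (`v (σ̂ z) = v z`), `extHom_comp`,
  `extHom_id`;
* `extEquiv σ hσ : L ≃+* L` for `σ : F ≃+* F`, `extEquiv_coe`, `val_extEquiv`, `extEquiv_one`,
  `extEquiv_mul`, `extEquiv_pow`, `extEquiv_pow_eq_one`;
* `exists_lim`           : `κ < 1`, `κ ^ n → 0` (`harch`), `v (u (n+1) - u n) ≤ κ ^ n` ⟹
  `∃ y`, `∀ n`, `v (y - u n) ≤ κ ^ n` (the `hcomp` of `NormDepth/PthPower`).
-/
import Mathlib

set_option autoImplicit false

noncomputable section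

open Topology Filter UniformSpace

namespace Fermat.Agent.GF.KCover.Compl.Gen

variable {F : Type*} [Field F] {Γ₀ : Type*} [LinearOrderedCommGroupWithZero Γ₀]
  [hv : Valued F Γ₀]

local notation "L" => UniformSpace.Completion F

/-! ### density -/

/-- the open ball of radius `v c` is a neighbourhood -/
theorem ball_mem_nhds (z : L) {c : F} (hc : c ≠ 0) :
    {y : L | Valued.v (y - z) < hv.v c} ∈ 𝓝 z := by
  rw [Valued.mem_nhds]
  have hc' : (Valued.v : Valuation L Γ₀).restrict ((c : F) : L) ≠ 0 := by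
    rw [Ne, Valuation.zero_iff, ← Completion.coe_zero, Completion.coe_inj]
    exact hc
  refine ⟨Units.mk0 _ hc', fun y hy => ?_⟩
  rw [Set.mem_ofPred_eq, Units.val_mk0, Valuation.restrict_lt_iff, Valued.valuedCompletion_apply]
    at hy
  exact hy

/-- **density of `F` in its completion**, in valuation form -/
theorem exists_approx (z : L) {c : F} (hc : c ≠ 0) :
    ∃ b : F, Valued.v (z - (b : L)) < hv.v c := by
  obtain ⟨b, hb⟩ := (Completion.denseRange_coe (α := F)).mem_nhds (ball_mem_nhds z hc)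
  exact ⟨b, by rw [Valuation.map_sub_swap]; exact hb⟩

/-- approximation inside a neighbourhood -/
theorem exists_approx_mem (z : L) {s : Set L} (hs : s ∈ 𝓝 z) : ∃ b : F, ((b : F) : L) ∈ s :=
  (Completion.denseRange_coe (α := F)).mem_nhds hs

/-! ### valuation-preserving endomorphisms -/

/-- a ring endomorphism preserving the valuation is continuous -/
theorem continuous_of_val_eq (σ : F →+* F) (hσ : ∀ x, hv.v (σ x) = hv.v x) : Continuous σ := by
  refine continuous_of_continuousAt_zero σ ?_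
  rw [ContinuousAt, map_zero]
  rw [(Valued.hasBasis_nhds_zero F Γ₀).tendsto_iff (Valued.hasBasis_nhds_zero F Γ₀)]
  intro γ _
  refine ⟨γ, trivial, fun x hx => ?_⟩
  rw [Set.mem_ofPred_eq] at hx ⊢
  have : hv.v.restrict (σ x) = hv.v.restrict x := (Valuation.restrict_inj hv.v).2 (hσ x)
  rw [this]
  exact hx

/-- the extension of a valuation-preserving endomorphism to the completion -/
def extHom (σ : F →+* F) (hσ : ∀ x, hv.v (σ x) = hv.v x) : L →+* L :=
  Completion.mapRingHom σ (continuous_of_val_eq σ hσ)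

theorem extHom_coe (σ : F →+* F) (hσ : ∀ x, hv.v (σ x) = hv.v x) (x : F) :
    extHom σ hσ (x : L) = ((σ x : F) : L) :=
  Completion.mapRingHom_coe (continuous_of_val_eq σ hσ) x

theorem continuous_extHom (σ : F →+* F) (hσ : ∀ x, hv.v (σ x) = hv.v x) :
    Continuous (extHom σ hσ) := by
  show Continuous (Completion.map σ)
  exact Completion.continuous_map

/-- **the extension preserves the valuation** -/
theorem val_extHom (σ : F →+* F) (hσ : ∀ x, hv.v (σ x) = hv.v x) (z : L) :
    Valued.v (extHom σ hσ z) = Valued.v z := by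
  rcases eq_or_ne z 0 with rfl | hz
  · rw [map_zero]
  have hσz : extHom σ hσ z ≠ 0 := (map_ne_zero_iff _ (extHom σ hσ).injective).2 hz
  have h1 : {y : L | Valued.v y = Valued.v z} ∈ 𝓝 z :=
    Valued.locally_const ((Valuation.ne_zero_iff _).2 hz)
  have h2 : {y : L | Valued.v (extHom σ hσ y) = Valued.v (extHom σ hσ z)} ∈ 𝓝 z :=
    (continuous_extHom σ hσ).continuousAt.preimage_mem_nhds
      (Valued.locally_const ((Valuation.ne_zero_iff _).2 hσz))
  obtain ⟨b, hb⟩ := exists_approx_mem z (Filter.inter_mem h1 h2)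
  obtain ⟨hb1, hb2⟩ := hb
  rw [Set.mem_ofPred_eq] at hb1 hb2
  rw [← hb2, ← hb1, extHom_coe, Valued.valuedCompletion_apply, Valued.valuedCompletion_apply, hσ]

theorem extHom_comp (σ τ : F →+* F) (hσ : ∀ x, hv.v (σ x) = hv.v x)
    (hτ : ∀ x, hv.v (τ x) = hv.v x) :
    (extHom σ hσ).comp (extHom τ hτ) =
      extHom (σ.comp τ) (fun x => by rw [RingHom.comp_apply, hσ, hτ]) :=
  Completion.mapRingHom_comp _ _

theorem extHom_id : extHom (RingHom.id F) (fun _ => rfl) = RingHom.id L :=
  Completion.mapRingHom_id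

theorem extHom_congr {σ τ : F →+* F} (h : σ = τ) (hσ : ∀ x, hv.v (σ x) = hv.v x) :
    extHom σ hσ = extHom τ (fun x => by rw [← h]; exact hσ x) := by
  subst h; rfl

/-! ### valuation-preserving automorphisms -/

theorem val_symm_eq (σ : F ≃+* F) (hσ : ∀ x, hv.v (σ x) = hv.v x) (x : F) :
    hv.v (σ.symm x) = hv.v x := by
  have := hσ (σ.symm x)
  rw [RingEquiv.apply_symm_apply] at this
  exact this.symm

/-- **the extension of a valuation-preserving automorphism to the completion** -/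
def extEquiv (σ : F ≃+* F) (hσ : ∀ x, hv.v (σ x) = hv.v x) : L ≃+* L :=
  RingEquiv.ofRingHom (extHom (σ : F →+* F) hσ) (extHom (σ.symm : F →+* F) (val_symm_eq σ hσ))
    (by
      rw [extHom_comp, ← extHom_id]
      exact extHom_congr (RingHom.ext fun x => σ.apply_symm_apply x) _)
    (by
      rw [extHom_comp, ← extHom_id]
      exact extHom_congr (RingHom.ext fun x => σ.symm_apply_apply x) _)

theorem extEquiv_apply (σ : F ≃+* F) (hσ : ∀ x, hv.v (σ x) = hv.v x) (z : L) :
    extEquiv σ hσ z = extHom (σ : F →+* F) hσ z := rfl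

theorem extEquiv_coe (σ : F ≃+* F) (hσ : ∀ x, hv.v (σ x) = hv.v x) (x : F) :
    extEquiv σ hσ (x : L) = ((σ x : F) : L) :=
  extHom_coe (σ : F →+* F) hσ x

theorem val_extEquiv (σ : F ≃+* F) (hσ : ∀ x, hv.v (σ x) = hv.v x) (z : L) :
    Valued.v (extEquiv σ hσ z) = Valued.v z :=
  val_extHom (σ : F →+* F) hσ z

theorem extEquiv_one : extEquiv (1 : F ≃+* F) (fun _ => rfl) = (1 : L ≃+* L) := by
  apply RingEquiv.ext
  intro z
  rw [extEquiv_apply]
  have : ((1 : F ≃+* F) : F →+* F) = RingHom.id F := rfl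
  rw [extHom_congr this, extHom_id]
  rfl

theorem extEquiv_mul (σ τ : F ≃+* F) (hσ : ∀ x, hv.v (σ x) = hv.v x)
    (hτ : ∀ x, hv.v (τ x) = hv.v x) :
    extEquiv (σ * τ) (fun x => by rw [RingAut.mul_apply, hσ, hτ]) =
      extEquiv σ hσ * extEquiv τ hτ := by
  apply RingEquiv.ext
  intro z
  rw [RingAut.mul_apply, extEquiv_apply, extEquiv_apply, extEquiv_apply]
  have := congrArg (fun φ : L →+* L => φ z) (extHom_comp (σ : F →+* F) (τ : F →+* F) hσ hτ)
  simp only [RingHom.comp_apply] at this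
  rw [this]
  rfl

theorem val_pow_eq (σ : F ≃+* F) (hσ : ∀ x, hv.v (σ x) = hv.v x) (d : ℕ) (x : F) :
    hv.v ((σ ^ d) x) = hv.v x := by
  induction d generalizing x with
  | zero => rfl
  | succ d ih => rw [pow_succ, RingAut.mul_apply, ih, hσ]

theorem extEquiv_pow (σ : F ≃+* F) (hσ : ∀ x, hv.v (σ x) = hv.v x) (d : ℕ) :
    extEquiv (σ ^ d) (val_pow_eq σ hσ d) = extEquiv σ hσ ^ d := by
  induction d with
  | zero => exact extEquiv_one
  | succ d ih =>
    rw [pow_succ (extEquiv σ hσ), ← ih, ← extEquiv_mul]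
    rfl

theorem extEquiv_congr {σ τ : F ≃+* F} (h : σ = τ) (hσ : ∀ x, hv.v (σ x) = hv.v x) :
    extEquiv σ hσ = extEquiv τ (fun x => by rw [← h]; exact hσ x) := by
  subst h; rfl

/-- `σ ^ d = 1` ⟹ `σ̂ ^ d = 1` -/
theorem extEquiv_pow_eq_one (σ : F ≃+* F) (hσ : ∀ x, hv.v (σ x) = hv.v x) {d : ℕ}
    (hd : σ ^ d = 1) : extEquiv σ hσ ^ d = 1 := by
  rw [← extEquiv_pow, extEquiv_congr hd, extEquiv_one]

/-! ### sequential completeness -/

/-- ultrametric telescoping -/
theorem val_sub_le_of_succ_le {A : Type*} [Ring A] (w : Valuation A Γ₀) {κ : Γ₀} (hκ : κ ≤ 1)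
    {u : ℕ → A} (hu : ∀ n, w (u (n + 1) - u n) ≤ κ ^ n) (n m : ℕ) (hnm : n ≤ m) :
    w (u m - u n) ≤ κ ^ n := by
  induction m, hnm using Nat.le_induction with
  | base => rw [sub_self, map_zero]; exact zero_le
  | succ m hnm ih =>
    have : u (m + 1) - u n = (u (m + 1) - u m) + (u m - u n) := by abel
    rw [this]
    refine w.map_add_le ((hu m).trans (pow_le_pow_right_of_le_one' hκ hnm)) ih

/-- **sequential completeness of the completion** in the form of `NormDepth/PthPower.hcomp` -/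
theorem exists_lim {κ : Γ₀} (hκ : κ < 1) (harch : ∀ γ : Γ₀, γ ≠ 0 → ∃ n : ℕ, κ ^ n < γ)
    (u : ℕ → L) (hu : ∀ n, Valued.v (u (n + 1) - u n) ≤ κ ^ n) :
    ∃ y : L, ∀ n, Valued.v (y - u n) ≤ κ ^ n := by
  have htel := val_sub_le_of_succ_le (Valued.v : Valuation L Γ₀) hκ.le hu
  have hc : CauchySeq u := by
    rw [CauchySeq, Valued.cauchy_iff]
    refine ⟨Filter.map_neBot, fun γ => ?_⟩
    have hγ0 : MonoidWithZeroHom.ValueGroup₀.embedding γ.1 ≠ 0 := by
      rw [Ne, map_eq_zero]
      exact γ.ne_zero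
    obtain ⟨N, hN⟩ := harch _ hγ0
    refine ⟨u '' {n | N ≤ n}, Filter.image_mem_map (Filter.mem_atTop N), ?_⟩
    rintro _ ⟨n, hn, rfl⟩ _ ⟨m, hm, rfl⟩
    rw [Set.mem_ofPred_eq] at hn hm
    rw [Valuation.restrict_lt_iff_lt_embedding]
    refine lt_of_le_of_lt ?_ hN
    rcases le_total n m with h | h
    · exact (htel n m h).trans (pow_le_pow_right_of_le_one' hκ.le hn)
    · rw [Valuation.map_sub_swap]
      exact (htel m n h).trans (pow_le_pow_right_of_le_one' hκ.le hm)
  obtain ⟨y, hy⟩ := cauchySeq_tendsto_of_complete hc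
  refine ⟨y, fun n => ?_⟩
  by_contra hcon
  rw [not_le] at hcon
  have hne : y - u n ≠ 0 := by
    intro h
    rw [h, map_zero] at hcon
    exact not_lt_zero hcon
  have h1 : {w : L | Valued.v w = Valued.v (y - u n)} ∈ 𝓝 (y - u n) :=
    Valued.locally_const ((Valuation.ne_zero_iff _).2 hne)
  have h2 : Tendsto (fun m => u m - u n) atTop (𝓝 (y - u n)) := hy.sub_const (u n)
  have h3 := h2.eventually h1
  obtain ⟨m, hm⟩ := (h3.and (Filter.eventually_ge_atTop n)).exists
  obtain ⟨hm1, hm2⟩ := hm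
  have := htel n m hm2
  rw [hm1] at this
  exact absurd this (not_le.2 hcon)

end Fermat.Agent.GF.KCover.Compl.Gen
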