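/-
GATE-F (S40/S44) / node GF-KCOVER-INST-COMPL, file 2 (helper19): **the completion `Compl v` of a
field `F` at an EXPLICIT valuation `v : Valuation F Γ₀`** (no `Valued` instance at the call site),
with the record consumed by `GF/KCover/Field/{Split,Inertia}` (helper3):

* `Compl v` (a field), `j v : F →+* Compl v`, `val v : Valuation (Compl v) Γ₀`, `val_j`;
* `exists_approx`  : `∀ z`, `∀ c ≠ 0`, `∃ b : F`, `val v (z - j v b) < v c`  (density);
  `exists_val_eq`  : `∀ z`, `∃ r : F`, `val v z = v r` (same value group);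
* `ext v σ hσ : Compl v ≃+* Compl v` for `σ : F ≃+* F` with `v ∘ σ = v`; `ext_j`, `val_ext`,
  `ext_one`, `ext_mul`, `ext_pow`, `ext_pow_eq_one`  (`τL`, `hτL`, `v ∘ τL = v`, `τL ^ d = 1`);
* `exists_lim`     : the sequential completeness `hcomp` of `NormDepth/PthPower`;
* `exists_root'`, `exists_root` : **deep principal units are `p`-th powers in the completion**:
  `v (z - 1) ≤ v p ^ 3` ⟹ `∃ γ : Compl v`, `γ ^ p = j v z`, `val v (γ - 1) ≤ v p`
  (`NormDepth.exists_pow_eq_of_val_sub_one_le`, helper50).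
-/
import Fermat.Agent.GF.KCover.Compl.Valued
import Fermat.Agent.GF.NormDepth.PthPower

set_option autoImplicit false
set_option linter.dupNamespace false

noncomputable section

open Topology Filter UniformSpace

namespace Fermat.Agent.GF.KCover.Compl

variable {F : Type*} [Field F] {Γ₀ : Type*} [LinearOrderedCommGroupWithZero Γ₀]
  (v : Valuation F Γ₀)

/-- **the completion of `F` at the valuation `v`** -/
def Compl : Type _ := @UniformSpace.Completion F (Valued.mk' v).toUniformSpace

instance instFieldCompl : Field (Compl v) := by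
  letI := Valued.mk' v
  exact (inferInstance : Field (UniformSpace.Completion F))

/-- the canonical embedding -/
def j : F →+* Compl v :=
  letI := Valued.mk' v
  (UniformSpace.Completion.coeRingHom : F →+* UniformSpace.Completion F)

/-- the extended valuation -/
def val : Valuation (Compl v) Γ₀ :=
  letI := Valued.mk' v
  (Valued.v : Valuation (UniformSpace.Completion F) Γ₀)

@[simp] theorem val_j (x : F) : val v (j v x) = v x := by
  let _ := Valued.mk' v
  exact Valued.valuedCompletion_apply x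

theorem j_injective : Function.Injective (j v) := (j v).injective

/-- the completion has the same values as `F` -/
theorem exists_val_eq (z : Compl v) : ∃ r : F, val v z = v r := by
  let _ := Valued.mk' v
  exact Valued.exists_coe_eq_v (K := F) z

/-- **density** -/
theorem exists_approx (z : Compl v) {c : F} (hc : c ≠ 0) :
    ∃ b : F, val v (z - j v b) < v c := by
  let _ := Valued.mk' v
  exact Gen.exists_approx (F := F) z hc

/-- density in the integers modulo the maximal ideal (`hdense` of `Inertia.inertial_of_dense`) -/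
theorem exists_approx_one (z : Compl v) : ∃ b : F, val v (z - j v b) < 1 := by
  obtain ⟨b, hb⟩ := exists_approx v z (one_ne_zero (α := F))
  exact ⟨b, by rwa [map_one] at hb⟩

/-! ### automorphisms -/

/-- **the extension of a valuation-preserving automorphism** -/
def ext (σ : F ≃+* F) (hσ : ∀ x, v (σ x) = v x) : Compl v ≃+* Compl v :=
  letI := Valued.mk' v
  (Gen.extEquiv σ hσ : UniformSpace.Completion F ≃+* UniformSpace.Completion F)

theorem ext_j (σ : F ≃+* F) (hσ : ∀ x, v (σ x) = v x) (x : F) :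
    ext v σ hσ (j v x) = j v (σ x) := by
  let _ := Valued.mk' v
  exact Gen.extEquiv_coe σ hσ x

theorem val_ext (σ : F ≃+* F) (hσ : ∀ x, v (σ x) = v x) (z : Compl v) :
    val v (ext v σ hσ z) = val v z := by
  let _ := Valued.mk' v
  exact Gen.val_extEquiv σ hσ z

theorem ext_one : ext v (1 : F ≃+* F) (fun _ => rfl) = 1 := by
  let _ := Valued.mk' v
  exact Gen.extEquiv_one

theorem ext_mul (σ τ : F ≃+* F) (hσ : ∀ x, v (σ x) = v x) (hτ : ∀ x, v (τ x) = v x) :
    ext v (σ * τ) (fun x => by rw [RingAut.mul_apply, hσ, hτ]) = ext v σ hσ * ext v τ hτ := by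
  let _ := Valued.mk' v
  exact Gen.extEquiv_mul σ τ hσ hτ

theorem val_pow_eq' (σ : F ≃+* F) (hσ : ∀ x, v (σ x) = v x) (d : ℕ) (x : F) :
    v ((σ ^ d) x) = v x := by
  let _ := Valued.mk' v
  exact Gen.val_pow_eq σ hσ d x

theorem ext_pow (σ : F ≃+* F) (hσ : ∀ x, v (σ x) = v x) (d : ℕ) :
    ext v (σ ^ d) (val_pow_eq' v σ hσ d) = ext v σ hσ ^ d := by
  let _ := Valued.mk' v
  exact Gen.extEquiv_pow σ hσ d

/-- `σ ^ d = 1` ⟹ `σ̂ ^ d = 1` -/
theorem ext_pow_eq_one (σ : F ≃+* F) (hσ : ∀ x, v (σ x) = v x) {d : ℕ} (hd : σ ^ d = 1) :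
    ext v σ hσ ^ d = 1 := by
  let _ := Valued.mk' v
  exact Gen.extEquiv_pow_eq_one σ hσ hd

/-! ### completeness and `p`-th roots -/

/-- **sequential completeness** (`hcomp` of `NormDepth/PthPower`) -/
theorem exists_lim {κ : Γ₀} (hκ : κ < 1) (harch : ∀ γ : Γ₀, γ ≠ 0 → ∃ n : ℕ, κ ^ n < γ)
    (u : ℕ → Compl v) (hu : ∀ n, val v (u (n + 1) - u n) ≤ κ ^ n) :
    ∃ y : Compl v, ∀ n, val v (y - u n) ≤ κ ^ n := by
  let _ := Valued.mk' v
  exact Gen.exists_lim (F := F) hκ harch u hu

theorem natCast_eq (n : ℕ) : (n : Compl v) = j v (n : F) := (map_natCast (j v) n).symm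

theorem val_natCast (n : ℕ) : val v (n : Compl v) = v (n : F) := by
  rw [natCast_eq, val_j]

/-- **deep principal units of the completion are `p`-th powers** -/
theorem exists_root' {p : ℕ} (hp0 : (p : F) ≠ 0) (hκ : v (p : F) < 1)
    (harch : ∀ γ : Γ₀, γ ≠ 0 → ∃ n : ℕ, v (p : F) ^ n < γ)
    {x : Compl v} (hx : val v (x - 1) ≤ v (p : F) ^ 3) :
    ∃ y : Compl v, y ^ p = x ∧ val v (y - 1) ≤ v (p : F) := by
  have hp0' : (p : Compl v) ≠ 0 := by
    rw [natCast_eq, Ne, map_eq_zero_iff _ (j_injective v)]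
    exact hp0
  have hκ' : val v (p : Compl v) < 1 := by rw [val_natCast]; exact hκ
  have := Fermat.Agent.GF.NormDepth.exists_pow_eq_of_val_sub_one_le (val v) hp0' hκ'
    (fun u hu => by
      rw [val_natCast] at hu ⊢
      exact exists_lim v hκ harch u hu)
    (fun γ hγ => by
      rw [val_natCast]
      exact harch γ hγ)
    (x := x) (by rw [val_natCast]; exact hx)
  rw [val_natCast] at this
  exact this

/-- the same for an element of `F` -/
theorem exists_root {p : ℕ} (hp0 : (p : F) ≠ 0) (hκ : v (p : F) < 1)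
    (harch : ∀ γ : Γ₀, γ ≠ 0 → ∃ n : ℕ, v (p : F) ^ n < γ)
    {z : F} (hz : v (z - 1) ≤ v (p : F) ^ 3) :
    ∃ γ : Compl v, γ ^ p = j v z ∧ val v (γ - 1) ≤ v (p : F) := by
  refine exists_root' v hp0 hκ harch ?_
  have : j v z - 1 = j v (z - 1) := by rw [map_sub, map_one]
  rw [this, val_j]
  exact hz

end Fermat.Agent.GF.KCover.Compl
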