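/-
GATE-F (S40/S44) / GF-KCOVER-INST, leaf (L-c) (helper42): **the reduction datum of the completion.**

`R : RedData K F k Ft` a Gauss-type valuation of `F/K`, `v := R.Rw.valuation`,
`L := Compl v` the completion (helper19 `GF/KCover/Compl/Main`).  The completion is an immediate
extension: same value group (`exists_val_eq`) and same residue field (`exists_approx_one`).  Hence

* `redCompl R : RedData K (Compl R.Rw.valuation) k Ft` — valuation ring `{val ≤ 1}`, the SAME base
  `A`, `res`, and the residue map `red̂ z := R.red b` for ANY `b : F` with `val (z − j b) < 1`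
  (`redCompl_red_eq`);
* `redCompl_mem`, `redCompl_red_j` : it extends `R` along `j`;
* `unram_redCompl : Unram R → Unram (redCompl R)`;
* `sheet R e he` (`e : F' →ₐ[K] Compl v` with `e ∘ algebraMap F F' = j`, in the gate `e = emb k`,
  `G ↦ ζ^k γ`): the reduction datum `OrdRedExt.comapRed e (redCompl R)` of the sheet of the cover,
  with `redExt_sheet : RedExt R (sheet R e he)`, `unram_sheet`, `ordRed_sheet`.
-/
import Fermat.Agent.GF.KCover.Compl.Main
import Fermat.Agent.GF.KCover.Node.OrdRedExt

set_option autoImplicit false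
set_option linter.unusedSectionVars false
set_option linter.dupNamespace false

noncomputable section

open AlgebraicCurve

namespace Fermat.Agent.GF.KCover.Compl.RedCompl

open Fermat.Agent.GJ.J1 Fermat.Agent.S24 Fermat.Agent.GF.Trop Fermat.Agent.GF.KCover.Compl
open Fermat.Agent.GF.KCover.Node.OrdRedExt

variable {K F k Ft : Type*} [Field K] [Field F] [Algebra K F] [Field k] [Field Ft] [Algebra k Ft]

variable (R : RedData K F k Ft)

/-- the completion of `F` at the valuation of the reduction datum -/
abbrev LR : Type _ := Compl R.Rw.valuation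

instance instAlgebraFLR : Algebra F (LR R) := (j R.Rw.valuation).toAlgebra

instance instAlgebraKLR : Algebra K (LR R) := ((j R.Rw.valuation).comp (algebraMap K F)).toAlgebra

instance instIsScalarTowerLR : IsScalarTower K F (LR R) :=
  IsScalarTower.of_algebraMap_eq fun _ => rfl

theorem algebraMap_F_eq (x : F) : algebraMap F (LR R) x = j R.Rw.valuation x := rfl

theorem algebraMap_K_eq (a : K) : algebraMap K (LR R) a = j R.Rw.valuation (algebraMap K F a) := rfl

/-- the valuation ring of the completion -/
def RwL : ValuationSubring (LR R) := (val R.Rw.valuation).valuationSubring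

theorem mem_RwL {z : LR R} : z ∈ RwL R ↔ val R.Rw.valuation z ≤ 1 :=
  Valuation.mem_valuationSubring_iff _ _

theorem j_mem_RwL_iff {x : F} : j R.Rw.valuation x ∈ RwL R ↔ x ∈ R.Rw := by
  rw [mem_RwL, val_j, ValuationSubring.valuation_le_one_iff]

/-- an approximant modulo the maximal ideal of an integral element is integral -/
theorem approx_mem {z : LR R} (hz : z ∈ RwL R) {b : F}
    (hb : val R.Rw.valuation (z - j R.Rw.valuation b) < 1) : b ∈ R.Rw := by
  rw [← j_mem_RwL_iff, mem_RwL]
  have e : j R.Rw.valuation b = z - (z - j R.Rw.valuation b) := by ring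
  rw [e]
  exact (Valuation.map_sub _ _ _).trans (max_le ((mem_RwL R).1 hz) hb.le)

/-- two approximants have the same reduction -/
theorem red_approx_eq {z : LR R} {b b' : F} (hbm : b ∈ R.Rw) (hbm' : b' ∈ R.Rw)
    (hb : val R.Rw.valuation (z - j R.Rw.valuation b) < 1)
    (hb' : val R.Rw.valuation (z - j R.Rw.valuation b') < 1) :
    R.red ⟨b, hbm⟩ = R.red ⟨b', hbm'⟩ := by
  have h1 : R.Rw.valuation (b - b') < 1 := by
    rw [← val_j R.Rw.valuation (b - b')]
    have e : j R.Rw.valuation (b - b') =
        (z - j R.Rw.valuation b') - (z - j R.Rw.valuation b) := by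
      rw [map_sub]; ring
    rw [e]
    exact lt_of_le_of_lt (Valuation.map_sub _ _ _) (max_lt hb' hb)
  have h2 : (⟨b, hbm⟩ - ⟨b', hbm'⟩ : R.Rw) ∈ IsLocalRing.maximalIdeal R.Rw := by
    rw [ValuationSubring.valuation_lt_one_iff]
    exact h1
  have h3 := (R.red_eq_zero_iff _).2 h2
  rw [map_sub, sub_eq_zero] at h3
  exact h3

/-- the residue map of the completion, as a function -/
def redFun (z : RwL R) : Ft :=
  R.red ⟨Classical.choose (exists_approx_one R.Rw.valuation (z : LR R)),
    approx_mem R z.2 (Classical.choose_spec (exists_approx_one R.Rw.valuation (z : LR R)))⟩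

theorem redFun_eq (z : RwL R) {b : F}
    (hb : val R.Rw.valuation ((z : LR R) - j R.Rw.valuation b) < 1) :
    redFun R z = R.red ⟨b, approx_mem R z.2 hb⟩ :=
  red_approx_eq R _ _ (Classical.choose_spec (exists_approx_one R.Rw.valuation (z : LR R))) hb

/-- the residue map of the completion -/
def redL : RwL R →+* Ft where
  toFun := redFun R
  map_one' := by
    have hb : val R.Rw.valuation (((1 : RwL R) : LR R) - j R.Rw.valuation 1) < 1 := by
      rw [map_one, OneMemClass.coe_one, sub_self, map_zero]
      exact zero_lt_one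
    rw [redFun_eq R 1 hb]
    exact map_one R.red
  map_zero' := by
    have hb : val R.Rw.valuation (((0 : RwL R) : LR R) - j R.Rw.valuation 0) < 1 := by
      rw [map_zero, ZeroMemClass.coe_zero, sub_self, map_zero]
      exact zero_lt_one
    rw [redFun_eq R 0 hb]
    exact map_zero R.red
  map_add' z z' := by
    obtain ⟨b, hb⟩ := exists_approx_one R.Rw.valuation (z : LR R)
    obtain ⟨b', hb'⟩ := exists_approx_one R.Rw.valuation (z' : LR R)
    have hbb : val R.Rw.valuation (((z + z' : RwL R) : LR R) - j R.Rw.valuation (b + b')) < 1 := by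
      have e : ((z + z' : RwL R) : LR R) - j R.Rw.valuation (b + b') =
          ((z : LR R) - j R.Rw.valuation b) + ((z' : LR R) - j R.Rw.valuation b') := by
        rw [map_add]
        push_cast
        ring
      rw [e]
      exact lt_of_le_of_lt (Valuation.map_add _ _ _) (max_lt hb hb')
    rw [redFun_eq R _ hbb, redFun_eq R z hb, redFun_eq R z' hb', ← map_add]
    rfl
  map_mul' z z' := by
    obtain ⟨b, hb⟩ := exists_approx_one R.Rw.valuation (z : LR R)
    obtain ⟨b', hb'⟩ := exists_approx_one R.Rw.valuation (z' : LR R)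
    have hbm' : b' ∈ R.Rw := approx_mem R z'.2 hb'
    have hbb : val R.Rw.valuation (((z * z' : RwL R) : LR R) - j R.Rw.valuation (b * b')) < 1 := by
      have e : ((z * z' : RwL R) : LR R) - j R.Rw.valuation (b * b') =
          (z : LR R) * ((z' : LR R) - j R.Rw.valuation b') +
            ((z : LR R) - j R.Rw.valuation b) * j R.Rw.valuation b' := by
        rw [map_mul]
        push_cast
        ring
      rw [e]
      refine lt_of_le_of_lt (Valuation.map_add _ _ _) (max_lt ?_ ?_)
      · rw [map_mul]
        calc val R.Rw.valuation (z : LR R) * val R.Rw.valuation ((z' : LR R) - j R.Rw.valuation b')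
            ≤ 1 * val R.Rw.valuation ((z' : LR R) - j R.Rw.valuation b') :=
              mul_le_mul' ((mem_RwL R).1 z.2) le_rfl
          _ = val R.Rw.valuation ((z' : LR R) - j R.Rw.valuation b') := one_mul _
          _ < 1 := hb'
      · rw [map_mul]
        calc val R.Rw.valuation ((z : LR R) - j R.Rw.valuation b) *
              val R.Rw.valuation (j R.Rw.valuation b')
            ≤ val R.Rw.valuation ((z : LR R) - j R.Rw.valuation b) * 1 :=
              mul_le_mul' le_rfl ((mem_RwL R).1 ((j_mem_RwL_iff R).2 hbm'))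
          _ = val R.Rw.valuation ((z : LR R) - j R.Rw.valuation b) := mul_one _
          _ < 1 := hb
    rw [redFun_eq R _ hbb, redFun_eq R z hb, redFun_eq R z' hb', ← map_mul]
    rfl

theorem redL_eq (z : RwL R) {b : F}
    (hb : val R.Rw.valuation ((z : LR R) - j R.Rw.valuation b) < 1) :
    redL R z = R.red ⟨b, approx_mem R z.2 hb⟩ := redFun_eq R z hb

theorem redL_j (x : F) (hx : x ∈ R.Rw) :
    redL R ⟨j R.Rw.valuation x, (j_mem_RwL_iff R).2 hx⟩ = R.red ⟨x, hx⟩ := by
  have hb : val R.Rw.valuation
      (((⟨j R.Rw.valuation x, (j_mem_RwL_iff R).2 hx⟩ : RwL R) : LR R) - j R.Rw.valuation x) < 1 := by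
    rw [sub_self, map_zero]
    exact zero_lt_one
  exact redL_eq R _ hb

theorem redL_eq_zero_iff (z : RwL R) : redL R z = 0 ↔ z ∈ IsLocalRing.maximalIdeal (RwL R) := by
  obtain ⟨b, hb⟩ := exists_approx_one R.Rw.valuation (z : LR R)
  have hbm : b ∈ R.Rw := approx_mem R z.2 hb
  rw [redL_eq R z hb, R.red_eq_zero_iff, ValuationSubring.valuation_lt_one_iff,
    ← ValuationSubring.coe_mem_nonunits_iff]
  have hnu : (z : LR R) ∈ (RwL R).nonunits ↔ val R.Rw.valuation (z : LR R) < 1 := by
    unfold RwL
    rw [ValuationSubring.mem_nonunits_iff]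
    exact ((Valuation.isEquiv_valuation_valuationSubring (val R.Rw.valuation)).lt_one_iff_lt_one).symm
  rw [hnu]
  show R.Rw.valuation b < 1 ↔ _
  rw [← val_j R.Rw.valuation b]
  constructor
  · intro h
    have e : (z : LR R) = ((z : LR R) - j R.Rw.valuation b) + j R.Rw.valuation b := by ring
    rw [e]
    exact lt_of_le_of_lt (Valuation.map_add _ _ _) (max_lt hb h)
  · intro h
    have e : j R.Rw.valuation b = (z : LR R) - ((z : LR R) - j R.Rw.valuation b) := by ring
    rw [e]
    exact lt_of_le_of_lt (Valuation.map_sub _ _ _) (max_lt h hb)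

/-- **the reduction datum of the completion** -/
def redCompl : RedData K (LR R) k Ft where
  Rw := RwL R
  A := R.A
  mem_A_iff a := by
    rw [R.mem_A_iff, algebraMap_K_eq, j_mem_RwL_iff]
  red := redL R
  red_surjective y := by
    obtain ⟨x, rfl⟩ := R.red_surjective y
    exact ⟨⟨j R.Rw.valuation (x : F), (j_mem_RwL_iff R).2 x.2⟩, redL_j R _ x.2⟩
  red_eq_zero_iff := redL_eq_zero_iff R
  res := R.res
  res_surjective := R.res_surjective
  red_algebraMap a := by
    rw [← R.red_algebraMap a]
    exact redL_j R _ _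

theorem mem_redCompl_Rw {z : LR R} : z ∈ (redCompl R).Rw ↔ val R.Rw.valuation z ≤ 1 := mem_RwL R

/-- the reduction datum of the completion extends `R` along `j` -/
theorem redCompl_mem (x : F) (hx : x ∈ R.Rw) : algebraMap F (LR R) x ∈ (redCompl R).Rw :=
  (j_mem_RwL_iff R).2 hx

theorem redCompl_red_j (x : F) (hx : x ∈ R.Rw) :
    (redCompl R).red ⟨algebraMap F (LR R) x, redCompl_mem R x hx⟩ = R.red ⟨x, hx⟩ :=
  redL_j R x hx

/-- the residue map of the completion is computed by ANY approximant -/
theorem redCompl_red_eq (z : LR R) (hz : z ∈ (redCompl R).Rw) {b : F}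
    (hb : val R.Rw.valuation (z - j R.Rw.valuation b) < 1) :
    (redCompl R).red ⟨z, hz⟩ = R.red ⟨b, approx_mem R hz hb⟩ :=
  redL_eq R ⟨z, hz⟩ hb

theorem redExt_redCompl : RedExt R (redCompl R) where
  mem := redCompl_mem R
  red_eq := redCompl_red_j R

/-- the completion is unramified over the base as soon as `F` is -/
theorem unram_redCompl (hun : Unram R) : Unram (redCompl R) := by
  intro y hy
  obtain ⟨r, hr⟩ := exists_val_eq R.Rw.valuation y
  have hr0 : r ≠ 0 := by
    rintro rfl
    rw [map_zero] at hr
    exact hy ((Valuation.zero_iff _).1 hr)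
  obtain ⟨c, hc0, hm, hmi⟩ := hun r hr0
  have h1 : R.Rw.valuation (algebraMap K F c * r) = 1 := by
    apply le_antisymm ((ValuationSubring.valuation_le_one_iff _ _).2 hm)
    have h2 : R.Rw.valuation (algebraMap K F c * r)⁻¹ ≤ 1 :=
      (ValuationSubring.valuation_le_one_iff _ _).2 hmi
    rw [map_inv₀] at h2
    have hne : R.Rw.valuation (algebraMap K F c * r) ≠ 0 := by
      rw [Ne, Valuation.zero_iff]
      exact mul_ne_zero (by simpa using hc0) hr0
    exact (inv_le_one₀ (zero_lt_iff.2 hne)).1 h2
  have h3 : val R.Rw.valuation (algebraMap K (LR R) c * y) = 1 := by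
    rw [map_mul, algebraMap_K_eq, val_j, hr, ← map_mul]
    exact h1
  refine ⟨c, hc0, ?_, ?_⟩
  · rw [mem_redCompl_Rw, h3]
  · rw [mem_redCompl_Rw, map_inv₀, h3, inv_one]

/-! ### the sheets of a cover embedded in the completion -/

section Sheet

variable {F' : Type*} [Field F'] [Algebra K F'] [Algebra F F'] [IsScalarTower K F F']

/-- **the reduction datum of a sheet**: `e : F' →ₐ[K] L` over `j`. -/
def sheet (e : F' →ₐ[K] LR R) (he : ∀ x : F, e (algebraMap F F' x) = algebraMap F (LR R) x) :
    RedData K F' k Ft :=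
  comapRed e (redCompl R) (surjective_of_ext e (redCompl R) R
    (fun x hx => by rw [he]; exact redCompl_mem R x hx)
    (fun x hx => by
      have h := redCompl_red_j R x hx
      rw [← h]
      congr 1
      exact Subtype.ext (he x)))

theorem mem_sheet_Rw (e : F' →ₐ[K] LR R)
    (he : ∀ x : F, e (algebraMap F F' x) = algebraMap F (LR R) x) {y : F'} :
    y ∈ (sheet R e he).Rw ↔ val R.Rw.valuation (e y) ≤ 1 := mem_RwL R

theorem sheet_red (e : F' →ₐ[K] LR R)
    (he : ∀ x : F, e (algebraMap F F' x) = algebraMap F (LR R) x) (y : F')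
    (hy : y ∈ (sheet R e he).Rw) :
    (sheet R e he).red ⟨y, hy⟩ = (redCompl R).red ⟨e y, hy⟩ := rfl

theorem redExt_sheet (e : F' →ₐ[K] LR R)
    (he : ∀ x : F, e (algebraMap F F' x) = algebraMap F (LR R) x) : RedExt R (sheet R e he) :=
  redExt_comapRed e (redCompl R) _ R
    (fun x hx => by rw [he]; exact redCompl_mem R x hx)
    (fun x hx => by
      have h := redCompl_red_j R x hx
      rw [← h]
      congr 1
      exact Subtype.ext (he x))

theorem unram_sheet (hun : Unram R) (e : F' →ₐ[K] LR R)
    (he : ∀ x : F, e (algebraMap F F' x) = algebraMap F (LR R) x) : Unram (sheet R e he) :=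
  unram_comapRed e (redCompl R) _ (unram_redCompl R hun)

theorem ordRed_sheet (hun : Unram R) (e : F' →ₐ[K] LR R)
    (he : ∀ x : F, e (algebraMap F F' x) = algebraMap F (LR R) x) (Pl : Place k Ft) (y : F') :
    ordRed (sheet R e he) (unram_sheet R hun e he) Pl y =
      ordRed (redCompl R) (unram_redCompl R hun) Pl (e y) :=
  ordRed_comapRed e (redCompl R) _ (unram_redCompl R hun) Pl y

end Sheet

end Fermat.Agent.GF.KCover.Compl.RedCompl

end
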