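/-
GATE-F (S44) / node GF-KCOVER-INST, leaf GF-KCOVER-INST-REDL (helper19), item (T) of helper42 6564:
**automorphisms of the completion with trivial residue action**, on helper42's `redCompl R`.

`R : RedData K F k Ft`, `v := R.Rw.valuation`, `LR R = Compl v`, `redCompl R : RedData K (LR R) k Ft`.

* `valuation_map_eq_of_pow` : an automorphism `σ` of `F` preserving a valuation ring `A` preserves
  `A.valuation` at every element with finite `σ`-orbit (this is how `hσ` below is obtained for the
  arithmetic action of an element of the decomposition group on `FK N`: every element has a finite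
  orbit);
* `tauL R σ hσ : LR R ≃+* LR R` — the extension of `σ` (`v ∘ σ = v`); `tauL_j`, `val_tauL`,
  `tauL_pow_eq_one`, `tauL_algebraMap`;
* `redCompl_map_mem` : `tauL` preserves `(redCompl R).Rw`;
* **`redCompl_red_map`** : if `σ` acts trivially on the residue field of `R`
  (`R.red (σ x) = R.red x` on `R.Rw`) then `(redCompl R).red (tauL z) = (redCompl R).red z`;
* `isU_redCompl_iff : IsU (redCompl R) z ↔ val v z = 1`, `isU_sheet_iff`,
  `sheet_red_map` (the sheet form: `e ∘ x = tauL ∘ e` ⟹ `x` preserves `(sheet R e he).Rw` and acts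
  trivially on its residue field).
-/
import Mathlib
import Fermat.Agent.GF.KCover.Compl.RedCompl

set_option autoImplicit false
set_option linter.unusedSectionVars false

noncomputable section

namespace Fermat.Agent.GF.KCover.Compl.RedAut

open Fermat.Agent.GJ.J1 Fermat.Agent.GF.Trop Fermat.Agent.GF.KCover.Compl
open Fermat.Agent.GF.KCover.Compl.RedCompl Fermat.Agent.GF.KCover.Node.OrdRedExt

/-! ### automorphisms preserving a valuation ring preserve the valuation on finite orbits -/

section FiniteOrbit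

variable {F : Type*} [Field F] (A : ValuationSubring F) (σ : F ≃+* F)
  (hσ : ∀ x : F, σ x ∈ A ↔ x ∈ A)

include hσ in
theorem pow_mem_iff (n : ℕ) (x : F) : (σ ^ n) x ∈ A ↔ x ∈ A := by
  induction n generalizing x with
  | zero => rfl
  | succ n ih =>
    rw [pow_succ]
    show (σ ^ n) (σ x) ∈ A ↔ x ∈ A
    rw [ih, hσ]

include hσ in
/-- a product over an orbit of an element of valuation `< 1` has valuation `< 1`. -/
theorem valuation_prod_lt_one {u : F} (hu : A.valuation u < 1) (d : ℕ) (hd : 0 < d) :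
    A.valuation (∏ i ∈ Finset.range d, (σ ^ i) u) < 1 := by
  have hlt : ∀ i : ℕ, A.valuation ((σ ^ i) u) < 1 := by
    intro i
    by_contra hge
    rw [not_lt] at hge
    have hu0 : u ≠ 0 := by
      rintro rfl
      rw [map_zero, map_zero] at hge
      exact absurd hge (not_le.mpr zero_lt_one)
    have h1 : ((σ ^ i) u)⁻¹ ∈ A := by
      rw [← A.valuation_le_one_iff, map_inv₀]
      exact inv_le_one_of_one_le₀ hge
    rw [← map_inv₀, pow_mem_iff A σ hσ] at h1
    have h2 : A.valuation u⁻¹ ≤ 1 := (A.valuation_le_one_iff _).2 h1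
    rw [map_inv₀] at h2
    have h3 : 1 ≤ A.valuation u :=
      (inv_le_one₀ (zero_lt_iff.2 ((map_ne_zero _).2 hu0))).1 h2
    exact absurd hu (not_lt.mpr h3)
  obtain ⟨e, rfl⟩ : ∃ e, d = e + 1 := ⟨d - 1, by omega⟩
  rw [Finset.prod_range_succ, map_mul]
  have h1 : A.valuation (∏ i ∈ Finset.range e, (σ ^ i) u) ≤ 1 := by
    rw [map_prod]
    exact Finset.prod_le_one' fun i _ => (hlt i).le
  calc A.valuation (∏ i ∈ Finset.range e, (σ ^ i) u) * A.valuation ((σ ^ e) u)
      ≤ 1 * A.valuation ((σ ^ e) u) := by gcongr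
    _ = A.valuation ((σ ^ e) u) := one_mul _
    _ < 1 := hlt e

theorem prod_orbit_quot {x : F} (hx : x ≠ 0) (d : ℕ) :
    ∏ i ∈ Finset.range d, (σ ^ i) (σ x / x) = (σ ^ d) x / x := by
  induction d with
  | zero =>
    rw [Finset.prod_range_zero, pow_zero]
    show 1 = x / x
    rw [div_self hx]
  | succ d ih =>
    rw [Finset.prod_range_succ, ih, map_div₀]
    have h1 : (σ ^ d) (σ x) = (σ ^ (d + 1)) x := by
      rw [pow_succ]
      rfl
    rw [h1]
    have h2 : (σ ^ d) x ≠ 0 := (map_ne_zero _).2 hx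
    field_simp

include hσ in
/-- **`σ` preserves the valuation of `A` at every element with finite `σ`-orbit.** -/
theorem valuation_map_eq_of_pow {x : F} {d : ℕ} (hd : 0 < d) (hx : (σ ^ d) x = x) :
    A.valuation (σ x) = A.valuation x := by
  by_cases hx0 : x = 0
  · rw [hx0, map_zero]
  have hσx0 : σ x ≠ 0 := (map_ne_zero _).2 hx0
  have hprod : ∏ i ∈ Finset.range d, (σ ^ i) (σ x / x) = 1 := by
    rw [prod_orbit_quot σ hx0, hx, div_self hx0]
  have hprod' : ∏ i ∈ Finset.range d, (σ ^ i) (σ x / x)⁻¹ = 1 := by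
    simp only [map_inv₀]
    rw [Finset.prod_inv_distrib, hprod, inv_one]
  have h1 : ¬ A.valuation (σ x / x) < 1 := by
    intro h
    have := valuation_prod_lt_one A σ hσ h d hd
    rw [hprod, map_one] at this
    exact lt_irrefl _ this
  have h2 : ¬ A.valuation (σ x / x)⁻¹ < 1 := by
    intro h
    have := valuation_prod_lt_one A σ hσ h d hd
    rw [hprod', map_one] at this
    exact lt_irrefl _ this
  rw [not_lt] at h1 h2
  rw [map_inv₀] at h2
  have hq0 : A.valuation (σ x / x) ≠ 0 := (map_ne_zero _).2 (div_ne_zero hσx0 hx0)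
  have h3 : A.valuation (σ x / x) ≤ 1 := (one_le_inv₀ (zero_lt_iff.2 hq0)).1 h2
  have h4 : A.valuation (σ x / x) = 1 := le_antisymm h3 h1
  rw [map_div₀, div_eq_one_iff_eq ((map_ne_zero _).2 hx0)] at h4
  exact h4

end FiniteOrbit

/-! ### units of the completion -/

variable {K F k Ft : Type*} [Field K] [Field F] [Algebra K F] [Field k] [Field Ft] [Algebra k Ft]

variable (R : RedData K F k Ft)

/-- units of `redCompl R` are the elements of value `1`. -/
theorem isU_redCompl_iff (z : LR R) : IsU (redCompl R) z ↔ val R.Rw.valuation z = 1 := by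
  unfold IsU
  rw [mem_redCompl_Rw, mem_redCompl_Rw]
  constructor
  · rintro ⟨h0, h1, h2⟩
    rw [map_inv₀] at h2
    have hz : val R.Rw.valuation z ≠ 0 := (map_ne_zero _).2 h0
    exact le_antisymm h1 ((inv_le_one₀ (zero_lt_iff.2 hz)).1 h2)
  · intro h
    have h0 : z ≠ 0 := by
      rintro rfl
      rw [map_zero] at h
      exact zero_ne_one h
    refine ⟨h0, h.le, ?_⟩
    rw [map_inv₀, h, inv_one]

theorem isU_redCompl_j_iff (x : F) : IsU (redCompl R) (j R.Rw.valuation x) ↔ IsU R x := by
  unfold IsU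
  rw [← map_inv₀, mem_redCompl_Rw, mem_redCompl_Rw, val_j, val_j,
    ValuationSubring.valuation_le_one_iff, ValuationSubring.valuation_le_one_iff]
  constructor
  · rintro ⟨h0, h1, h2⟩
    exact ⟨fun h => h0 (by rw [h, map_zero]), h1, h2⟩
  · rintro ⟨h0, h1, h2⟩
    exact ⟨(map_ne_zero (j R.Rw.valuation)).2 h0, h1, h2⟩

section Sheet

variable {F' : Type*} [Field F'] [Algebra K F'] [Algebra F F'] [IsScalarTower K F F']

/-- units of a sheet: `val (e y) = 1`. -/
theorem isU_sheet_iff (e : F' →ₐ[K] LR R)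
    (he : ∀ x : F, e (algebraMap F F' x) = algebraMap F (LR R) x) (y : F') :
    IsU (sheet R e he) y ↔ val R.Rw.valuation (e y) = 1 := by
  rw [← isU_redCompl_iff]
  unfold IsU
  rw [mem_sheet_Rw, mem_sheet_Rw, mem_redCompl_Rw, mem_redCompl_Rw, map_inv₀]
  constructor
  · rintro ⟨h0, h1, h2⟩
    exact ⟨(map_ne_zero e).2 h0, h1, h2⟩
  · rintro ⟨h0, h1, h2⟩
    exact ⟨(map_ne_zero e).1 h0, h1, h2⟩

end Sheet

/-! ### automorphisms -/

section Aut

variable (σ : F ≃+* F) (hσ : ∀ x : F, R.Rw.valuation (σ x) = R.Rw.valuation x)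

/-- the extension of a valuation-preserving automorphism of `F` to the completion. -/
def tauL : LR R ≃+* LR R := ext R.Rw.valuation σ hσ

@[simp] theorem tauL_j (x : F) :
    tauL R σ hσ (j R.Rw.valuation x) = j R.Rw.valuation (σ x) := ext_j _ σ hσ x

theorem tauL_algebraMap (x : F) :
    tauL R σ hσ (algebraMap F (LR R) x) = algebraMap F (LR R) (σ x) := ext_j _ σ hσ x

@[simp] theorem val_tauL (z : LR R) :
    val R.Rw.valuation (tauL R σ hσ z) = val R.Rw.valuation z := val_ext _ σ hσ z

theorem tauL_pow_eq_one {d : ℕ} (hd : σ ^ d = 1) : tauL R σ hσ ^ d = 1 :=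
  ext_pow_eq_one _ σ hσ hd

/-- `tauL` preserves the valuation ring of the completion. -/
theorem redCompl_map_mem {z : LR R} (hz : z ∈ (redCompl R).Rw) :
    tauL R σ hσ z ∈ (redCompl R).Rw := by
  rw [mem_redCompl_Rw] at hz ⊢
  rw [val_tauL]
  exact hz

include hσ in
theorem map_mem_Rw {x : F} (hx : x ∈ R.Rw) : σ x ∈ R.Rw := by
  rw [← ValuationSubring.valuation_le_one_iff, hσ, ValuationSubring.valuation_le_one_iff]
  exact hx

/-- **trivial residue action passes to the completion.** -/
theorem redCompl_red_map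
    (hres : ∀ (x : F) (hx : x ∈ R.Rw), R.red ⟨σ x, map_mem_Rw R σ hσ hx⟩ = R.red ⟨x, hx⟩)
    {z : LR R} (hz : z ∈ (redCompl R).Rw) :
    (redCompl R).red ⟨tauL R σ hσ z, redCompl_map_mem R σ hσ hz⟩ = (redCompl R).red ⟨z, hz⟩ := by
  obtain ⟨b, hb⟩ := exists_approx_one R.Rw.valuation z
  have hbm : b ∈ R.Rw := approx_mem R hz hb
  have h1 : val R.Rw.valuation (tauL R σ hσ z - j R.Rw.valuation (σ b)) < 1 := by
    rw [← tauL_j R σ hσ b, ← map_sub, val_tauL]
    exact hb
  rw [redCompl_red_eq R _ (redCompl_map_mem R σ hσ hz) h1, redCompl_red_eq R z hz hb]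
  exact hres b hbm

section SheetAut

variable {F' : Type*} [Field F'] [Algebra K F'] [Algebra F F'] [IsScalarTower K F F']
  (e : F' →ₐ[K] LR R) (he : ∀ x : F, e (algebraMap F F' x) = algebraMap F (LR R) x)
  (x : F' ≃+* F') (hx : ∀ y : F', e (x y) = tauL R σ hσ (e y))

include hx in
/-- `x` preserves the valuation ring of the sheet. -/
theorem sheet_map_mem {y : F'} (hy : y ∈ (sheet R e he).Rw) : x y ∈ (sheet R e he).Rw := by
  rw [mem_sheet_Rw] at hy ⊢
  rw [hx, val_tauL]
  exact hy

include hx in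
theorem sheet_map_mem_iff (y : F') : x y ∈ (sheet R e he).Rw ↔ y ∈ (sheet R e he).Rw := by
  rw [mem_sheet_Rw, mem_sheet_Rw, hx, val_tauL]

/-- **trivial residue action on a sheet**: `e ∘ x = tauL ∘ e` and `σ` trivial on the residue field of
`R` ⟹ `x` acts trivially on the residue field of the sheet. -/
theorem sheet_red_map
    (hres : ∀ (a : F) (ha : a ∈ R.Rw), R.red ⟨σ a, map_mem_Rw R σ hσ ha⟩ = R.red ⟨a, ha⟩)
    {y : F'} (hy : y ∈ (sheet R e he).Rw) :
    (sheet R e he).red ⟨x y, sheet_map_mem R σ hσ e he x hx hy⟩ = (sheet R e he).red ⟨y, hy⟩ := by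
  rw [sheet_red, sheet_red]
  have hz : e y ∈ (redCompl R).Rw := hy
  have h := redCompl_red_map R σ hσ hres hz
  rw [← h]
  congr 1
  exact Subtype.ext (hx y)

include hx in
/-- `IsU` on a sheet is `x`-invariant. -/
theorem isU_sheet_map_iff (y : F') : IsU (sheet R e he) (x y) ↔ IsU (sheet R e he) y := by
  rw [isU_sheet_iff, isU_sheet_iff, hx, val_tauL]

end SheetAut

end Aut

end Fermat.Agent.GF.KCover.Compl.RedAut
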