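/-
GATE-F (S44) / node GF-KCOVER-INST, leaf GF-KCOVER-INST-REDL (helper19), item (C3):
**the bridge between the two completions** and the unit criterion on the sheets.

The `W`-data of the cover (`CoverFrame.w₁`, `w₂`) are helper3's `Pack.wv`: integer orders read in the
completion `Lc h` of the `K'`-rational functions `E₁ = F_{K'}` at a DISCRETE valuation `v`, through the
embeddings `Split.emb H₁ hζ (jc h) hγ k : E' →+* Lc h`.  The reduction data of the sheets
(`RedCompl.sheet`, helper42) live on the completion `Compl V` of the big field `F = FK N` over `ℚ̄`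
(value group not discrete), through `Split.emb H … k : F' →+* Compl V`.  Both need THE SAME `p`-th root
of `g₀`.  Here:

* `beta h V incl hincl harch : Lc h →+* Compl V` — the continuous extension of `j V ∘ incl`
  (`incl : E₁ →+* F`, `V ∘ incl = v`, `harch : ∀ γ ≠ 0, ∃ n, v ϖ ^ n < γ`);
  `beta_jc`, **`val_beta : z ≠ 0 → val V (beta z) = v ϖ ^ ordL h z`**, `val_beta_le_one_iff`,
  `val_beta_eq_one_iff`;
* `beta_root : γ ^ p = jc h g₀ → (beta γ) ^ p = j V (incl g₀)` — the root over `ℚ̄` is the image of the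
  `K'`-rational one (no second Newton argument);
* **`emb_incl`** : `Split.emb H … k (incl' y) = beta (Split.emb H₁ … k y)` for `y : E'`;
  **`val_emb_incl`** : `val V (emb H … k (incl' y)) = v ϖ ^ wv h H₁ hζ hγ k y`;
* `embAlg` : a ring hom `F' →+* LR R` over `j` as a `K`-algebra hom; `sheetK … k` the reduction datum of
  the `k`-th sheet (`RedCompl.sheet` along `embAlg (emb …)`), `redExt_sheetK`, `unram_sheetK`;
* **`isU_sheetK_iff_wv`** / `isU_sheetK_of_wv_eq_zero` : for `y : E'`, `y ≠ 0`:
  `IsU (sheetK … k) (incl' y) ↔ wv h H₁ hζ hγ k y = 0`   (= (C3)).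
-/
import Mathlib
import Fermat.Agent.GF.KCover.Field.Pack
import Fermat.Agent.GF.KCover.Compl.RedAut

set_option autoImplicit false
set_option linter.unusedSectionVars false

noncomputable section

open Topology Filter UniformSpace Polynomial

namespace Fermat.Agent.GF.KCover.Compl.Bridge

open Fermat.Agent.GF.KCover.Field Fermat.Agent.GF.KCover.Field.Disc
  Fermat.Agent.GF.KCover.Field.Pack

/-! ### the generic bridge (`[Valued F Γ₀]`) -/

namespace Gen

variable {E₁ : Type*} [Field E₁] {Γ₀ : Type*} [LinearOrderedCommGroupWithZero Γ₀]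
variable {v : Valuation E₁ Γ₀} {ϖ : E₁} (h : IsDisc v ϖ)
variable {F : Type*} [Field F] [hv : Valued F Γ₀]
variable (incl : E₁ →+* F) (hincl : ∀ a, hv.v (incl a) = v a)
variable (harch : ∀ γ : Γ₀, γ ≠ 0 → ∃ n : ℕ, v ϖ ^ n < γ)

local notation "L" => UniformSpace.Completion F

/-- `E₁` with the norm topology of `absD h` into `F`. -/
def gHom : WithAbs (absD h) →+* F :=
  incl.comp (WithAbs.equiv (absD h) : WithAbs (absD h) →+* E₁)

theorem gHom_apply (a : WithAbs (absD h)) : gHom h incl a = incl a.ofAbs := rfl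

theorem v_lt_of_absD_lt {a : E₁} {n : ℕ} (ha : absD h a < base ^ n) : v a < v ϖ ^ n := by
  by_cases ha0 : a = 0
  · rw [ha0, map_zero]
    exact pow_pos h.pos n
  rw [absD_of_ne h ha0, ← zpow_natCast base n, base_zpow_lt_iff] at ha
  rw [v_eq h ha0, ← zpow_natCast (v ϖ) n, h.zpow_lt_iff]
  exact ha

include hincl harch in
theorem continuous_gHom : Continuous (gHom h incl) := by
  refine continuous_of_continuousAt_zero (gHom h incl) ?_
  rw [ContinuousAt, map_zero, (Valued.hasBasis_nhds_zero F Γ₀).tendsto_right_iff]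
  intro γ _
  have hγ0 : MonoidWithZeroHom.ValueGroup₀.embedding γ.1 ≠ 0 := by
    intro h0
    have : γ.1 = 0 := MonoidWithZeroHom.ValueGroup₀.embedding_injective (by rw [h0, map_zero])
    exact γ.ne_zero this
  obtain ⟨n, hn⟩ := harch _ hγ0
  have hball : Metric.ball (0 : WithAbs (absD h)) (base ^ n) ∈ 𝓝 0 :=
    Metric.ball_mem_nhds _ (pow_pos base_pos n)
  filter_upwards [hball] with a ha
  rw [Metric.mem_ball, dist_zero_right, WithAbs.norm_eq_apply_ofAbs] at ha
  rw [Valuation.restrict_lt_iff_lt_embedding, gHom_apply, hincl]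
  exact (v_lt_of_absD_lt h ha).trans hn

/-- **the bridge** `Lc h →+* Completion F`. -/
def betaGen : Lc h →+* L :=
  Completion.extensionHom ((Completion.coeRingHom : F →+* L).comp (gHom h incl))
    ((Completion.continuous_coe F).comp (continuous_gHom h incl hincl harch))

theorem betaGen_coe (a : WithAbs (absD h)) :
    betaGen h incl hincl harch (a : Lc h) = ((incl a.ofAbs : F) : L) :=
  Completion.extensionHom_coe _ _ a

theorem betaGen_jc (a : E₁) : betaGen h incl hincl harch (jc h a) = ((incl a : F) : L) :=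
  betaGen_coe h incl hincl harch _

theorem continuous_betaGen : Continuous (betaGen h incl hincl harch) :=
  Completion.continuous_extension

/-- the norm of `Lc h` is locally constant away from `0`. -/
theorem norm_eq_of_sub_lt {y z : Lc h} (hyz : ‖y - z‖ < ‖z‖) : ‖y‖ = ‖z‖ := by
  apply le_antisymm
  · have e : y = (y - z) + z := by ring
    rw [e]
    exact (IsUltrametricDist.norm_add_le_max _ _).trans (max_le hyz.le le_rfl)
  · by_contra hlt
    rw [not_le] at hlt
    have e : z = y - (y - z) := by ring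
    have : ‖z‖ ≤ max ‖y‖ ‖y - z‖ := by
      conv_lhs => rw [e]
      exact Compl.norm_sub_le_max' _ _
    exact absurd this (not_le.mpr (max_lt hlt hyz))

/-- **the bridge is compatible with the orders.** -/
theorem val_betaGen {z : Lc h} (hz : z ≠ 0) :
    Valued.v (betaGen h incl hincl harch z) = v ϖ ^ ordL h z := by
  have hβz : betaGen h incl hincl harch z ≠ 0 :=
    (map_ne_zero_iff _ (betaGen h incl hincl harch).injective).2 hz
  have h1 : {y : Lc h | ‖y‖ = ‖z‖} ∈ 𝓝 z := by
    refine Filter.mem_of_superset (Metric.ball_mem_nhds z (norm_pos_iff.mpr hz)) fun y hy => ?_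
    rw [Metric.mem_ball, dist_eq_norm] at hy
    exact norm_eq_of_sub_lt h hy
  have h2 : {y : Lc h | Valued.v (betaGen h incl hincl harch y) =
      Valued.v (betaGen h incl hincl harch z)} ∈ 𝓝 z :=
    (continuous_betaGen h incl hincl harch).continuousAt.preimage_mem_nhds
      (Valued.locally_const ((Valuation.ne_zero_iff _).2 hβz))
  obtain ⟨b, hb⟩ := (Completion.denseRange_coe (α := WithAbs (absD h))).mem_nhds
    (Filter.inter_mem h1 h2)
  obtain ⟨hb1, hb2⟩ := hb
  rw [Set.mem_ofPred_eq] at hb1 hb2
  rw [← hb2, betaGen_coe, Valued.valuedCompletion_apply, hincl]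
  have hb0 : b.ofAbs ≠ 0 := by
    intro h0
    have : ‖(b : Lc h)‖ = 0 := by
      rw [Completion.norm_coe, WithAbs.norm_eq_apply_ofAbs, h0, map_zero]
    rw [hb1] at this
    exact hz (norm_eq_zero.mp this)
  have hord : ordL h z = ordD h b.ofAbs := by
    apply ordL_eq h hz
    rw [← hb1, Completion.norm_coe, WithAbs.norm_eq_apply_ofAbs, absD_of_ne h hb0]
  rw [hord, v_eq h hb0]

end Gen

/-! ### the bridge into `Compl V` -/

section Main

variable {E₁ : Type*} [Field E₁] {Γ₀ : Type*} [LinearOrderedCommGroupWithZero Γ₀]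
variable {v : Valuation E₁ Γ₀} {ϖ : E₁} (h : IsDisc v ϖ)
variable {F : Type*} [Field F] (V : Valuation F Γ₀)
variable (incl : E₁ →+* F) (hincl : ∀ a, V (incl a) = v a)
variable (harch : ∀ γ : Γ₀, γ ≠ 0 → ∃ n : ℕ, v ϖ ^ n < γ)

/-- **the bridge** `Lc h →+* Compl V` (continuous extension of `j V ∘ incl`). -/
def beta : Lc h →+* Compl V :=
  letI := Valued.mk' V
  (Gen.betaGen h incl hincl harch : Lc h →+* UniformSpace.Completion F)

@[simp] theorem beta_jc (a : E₁) : beta h V incl hincl harch (jc h a) = j V (incl a) := by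
  let _ := Valued.mk' V
  exact Gen.betaGen_jc h incl hincl harch a

theorem beta_injective : Function.Injective (beta h V incl hincl harch) :=
  (beta h V incl hincl harch).injective

/-- **the bridge is compatible with the orders.** -/
theorem val_beta {z : Lc h} (hz : z ≠ 0) :
    val V (beta h V incl hincl harch z) = v ϖ ^ ordL h z := by
  let _ := Valued.mk' V
  exact Gen.val_betaGen h incl hincl harch hz

theorem val_beta_le_one_iff {z : Lc h} (hz : z ≠ 0) :
    val V (beta h V incl hincl harch z) ≤ 1 ↔ ‖z‖ ≤ 1 := by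
  rw [val_beta h V incl hincl harch hz, norm_le_one_iff h hz, ← zpow_zero (v ϖ), h.zpow_le_iff]

theorem val_beta_eq_one_iff {z : Lc h} (hz : z ≠ 0) :
    val V (beta h V incl hincl harch z) = 1 ↔ ordL h z = 0 := by
  rw [val_beta h V incl hincl harch hz]
  constructor
  · intro h1
    exact h.zpow_inj (h1.trans (zpow_zero _).symm)
  · intro h0
    rw [h0, zpow_zero]

/-! ### the cover -/

section Cover

variable {E' : Type*} [Field E'] [Algebra E₁ E'] {p : ℕ} [NeZero p] {g₀ : E₁}
  (H₁ : IsAdjoinRoot E' (X ^ p - C g₀ : E₁[X])) {ζ : E₁} (hζ : IsPrimitiveRoot ζ p)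
  {γ : Lc h} (hγ : γ ^ p = jc h g₀)
variable {F' : Type*} [Field F'] [Algebra F F']
  (H : IsAdjoinRoot F' (X ^ p - C (incl g₀) : F[X]))
  (incl' : E' →+* F')
  (hincl' : ∀ a : E₁, incl' (algebraMap E₁ E' a) = algebraMap F F' (incl a))
  (hroot : incl' H₁.root = H.root)

include hγ in
/-- the image of the `K'`-rational root is a root over the big field. -/
theorem beta_root : (beta h V incl hincl harch γ) ^ p = j V (incl g₀) := by
  rw [← map_pow, hγ, beta_jc]

include hζ in
theorem isPrimitiveRoot_incl : IsPrimitiveRoot (incl ζ) p :=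
  hζ.map_of_injective incl.injective

/-- the `k`-th embedding of the big cover into `Compl V`, with the root `beta γ`. -/
def embV (k : ZMod p) : F' →+* Compl V :=
  emb H (isPrimitiveRoot_incl incl hζ) (j V) (beta_root h V incl hincl harch hγ) k

theorem embV_algebraMap (k : ZMod p) (a : F) :
    embV h V incl hincl harch hζ hγ H k (algebraMap F F' a) = j V a :=
  emb_algebraMap H _ (j V) _ k a

theorem embV_root (k : ZMod p) :
    embV h V incl hincl harch hζ hγ H k H.root =
      j V (incl ζ) ^ k.val * beta h V incl hincl harch γ :=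
  emb_root H _ (j V) _ k

include hincl' hroot in
/-- **the two families of embeddings are compatible through the bridge.** -/
theorem emb_incl (k : ZMod p) (y : E') :
    embV h V incl hincl harch hζ hγ H k (incl' y) =
      beta h V incl hincl harch (emb H₁ hζ (jc h) hγ k y) := by
  have key : (embV h V incl hincl harch hζ hγ H k).comp incl' =
      (beta h V incl hincl harch).comp (emb H₁ hζ (jc h) hγ k) := by
    refine ringHom_ext H₁ (fun a => ?_) ?_
    · rw [RingHom.comp_apply, RingHom.comp_apply, hincl', embV_algebraMap, emb_algebraMap, beta_jc]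
    · rw [RingHom.comp_apply, RingHom.comp_apply, hroot, embV_root, emb_root, map_mul, map_pow,
        beta_jc]
  exact congrArg (fun φ : E' →+* Compl V => φ y) key

include hincl' hroot in
/-- **the value on the big sheet is the `K'`-rational order.** -/
theorem val_emb_incl (k : ZMod p) {y : E'} (hy : y ≠ 0) :
    val V (embV h V incl hincl harch hζ hγ H k (incl' y)) = v ϖ ^ wv h H₁ hζ hγ k y := by
  rw [emb_incl h V incl hincl harch H₁ hζ hγ H incl' hincl' hroot k y]
  exact val_beta h V incl hincl harch ((_root_.map_ne_zero _).2 hy)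

include hincl' hroot in
theorem val_emb_incl_eq_one_iff (k : ZMod p) {y : E'} (hy : y ≠ 0) :
    val V (embV h V incl hincl harch hζ hγ H k (incl' y)) = 1 ↔ wv h H₁ hζ hγ k y = 0 := by
  rw [emb_incl h V incl hincl harch H₁ hζ hγ H incl' hincl' hroot k y]
  exact val_beta_eq_one_iff h V incl hincl harch ((_root_.map_ne_zero _).2 hy)

end Cover

end Main

/-! ### the sheets: `IsU` from the `K'`-rational orders -/

section Sheets

open Fermat.Agent.GJ.J1 Fermat.Agent.GF.Trop Fermat.Agent.GF.KCover.Compl.RedCompl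
  Fermat.Agent.GF.KCover.Compl.RedAut Fermat.Agent.GF.KCover.Node.OrdRedExt

variable {K F k Ft : Type*} [Field K] [Field F] [Algebra K F] [Field k] [Field Ft] [Algebra k Ft]
variable (R : RedData K F k Ft)
variable {F' : Type*} [Field F'] [Algebra K F'] [Algebra F F'] [IsScalarTower K F F']

/-- a ring hom `F' →+* LR R` over `j` is a `K`-algebra hom. -/
def embAlg (φ : F' →+* LR R) (hφ : ∀ x : F, φ (algebraMap F F' x) = j R.Rw.valuation x) :
    F' →ₐ[K] LR R :=
  { φ with
    commutes' := fun a => by
      show φ (algebraMap K F' a) = algebraMap K (LR R) a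
      rw [IsScalarTower.algebraMap_apply K F F', hφ]
      rfl }

@[simp] theorem embAlg_apply (φ : F' →+* LR R)
    (hφ : ∀ x : F, φ (algebraMap F F' x) = j R.Rw.valuation x) (y : F') :
    embAlg R φ hφ y = φ y := rfl

theorem embAlg_algebraMap (φ : F' →+* LR R)
    (hφ : ∀ x : F, φ (algebraMap F F' x) = j R.Rw.valuation x) (x : F) :
    embAlg R φ hφ (algebraMap F F' x) = algebraMap F (LR R) x := hφ x

variable {E₁ : Type*} [Field E₁] {ϖ : E₁} {v : Valuation E₁ (ValuationSubring.ValueGroup R.Rw)}
variable (incl : E₁ →+* F) (hincl : ∀ a : E₁, R.Rw.valuation (incl a) = v a)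
variable (h : IsDisc v ϖ)
variable (harch : ∀ γ : ValuationSubring.ValueGroup R.Rw, γ ≠ 0 → ∃ n : ℕ, v ϖ ^ n < γ)

variable {E' : Type*} [Field E'] [Algebra E₁ E'] {p : ℕ} [NeZero p] {g₀ : E₁}
  (H₁ : IsAdjoinRoot E' (X ^ p - C g₀ : E₁[X])) {ζ : E₁} (hζ : IsPrimitiveRoot ζ p)
  {γ : Lc h} (hγ : γ ^ p = jc h g₀)
  (H : IsAdjoinRoot F' (X ^ p - C (incl g₀) : F[X]))
  (incl' : E' →+* F')
  (hincl' : ∀ a : E₁, incl' (algebraMap E₁ E' a) = algebraMap F F' (incl a))
  (hroot : incl' H₁.root = H.root)

/-- the `k`-th embedding of the big cover into the completion of `F` at `R.Rw`, as a `K`-algebra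
hom; root `= (j ζ)^k · beta γ`. -/
def embK (i : ZMod p) : F' →ₐ[K] LR R :=
  embAlg R (embV h R.Rw.valuation incl hincl harch hζ hγ H i)
    (embV_algebraMap h R.Rw.valuation incl hincl harch hζ hγ H i)

theorem embK_algebraMap (i : ZMod p) (x : F) :
    embK R incl hincl h harch hζ hγ H i (algebraMap F F' x) = algebraMap F (LR R) x :=
  embV_algebraMap h R.Rw.valuation incl hincl harch hζ hγ H i x

theorem embK_root (i : ZMod p) :
    embK R incl hincl h harch hζ hγ H i H.root =
      j R.Rw.valuation (incl ζ) ^ i.val * beta h R.Rw.valuation incl hincl harch γ :=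
  embV_root h R.Rw.valuation incl hincl harch hζ hγ H i

/-- **the reduction datum of the `k`-th sheet of the big cover.** -/
def sheetK (i : ZMod p) : RedData K F' k Ft :=
  sheet R (embK R incl hincl h harch hζ hγ H i) (embK_algebraMap R incl hincl h harch hζ hγ H i)

theorem redExt_sheetK (i : ZMod p) : RedExt R (sheetK R incl hincl h harch hζ hγ H i) :=
  redExt_sheet R _ _

theorem unram_sheetK (hun : Unram R) (i : ZMod p) : Unram (sheetK R incl hincl h harch hζ hγ H i) :=
  unram_sheet R hun _ _

include hincl' hroot in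
/-- **(C3)**: on the `K'`-rational functions, the units of the `k`-th sheet are the elements of
order `0` at helper3's `w_k`. -/
theorem isU_sheetK_iff_wv (i : ZMod p) {y : E'} (hy : y ≠ 0) :
    IsU (sheetK R incl hincl h harch hζ hγ H i) (incl' y) ↔ wv h H₁ hζ hγ i y = 0 := by
  unfold sheetK
  rw [isU_sheet_iff]
  exact val_emb_incl_eq_one_iff h R.Rw.valuation incl hincl harch H₁ hζ hγ H incl' hincl'
    hroot i hy

include hincl' hroot in
theorem isU_sheetK_of_wv_eq_zero (i : ZMod p) {y : E'} (hy : y ≠ 0)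
    (hw : wv h H₁ hζ hγ i y = 0) : IsU (sheetK R incl hincl h harch hζ hγ H i) (incl' y) :=
  (isU_sheetK_iff_wv R incl hincl h harch H₁ hζ hγ H incl' hincl' hroot i hy).2 hw

include hincl' hroot in
/-- integrality on the sheet from the `K'`-rational order. -/
theorem mem_sheetK_Rw_iff_wv (i : ZMod p) {y : E'} (hy : y ≠ 0) :
    incl' y ∈ (sheetK R incl hincl h harch hζ hγ H i).Rw ↔ 0 ≤ wv h H₁ hζ hγ i y := by
  unfold sheetK
  rw [mem_sheet_Rw]
  show val R.Rw.valuation
    (embV h R.Rw.valuation incl hincl harch hζ hγ H i (incl' y)) ≤ 1 ↔ _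
  rw [val_emb_incl h R.Rw.valuation incl hincl harch H₁ hζ hγ H incl' hincl' hroot i hy,
    ← zpow_zero (v ϖ), h.zpow_le_iff]

end Sheets

end Fermat.Agent.GF.KCover.Compl.Bridge
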