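/-
GATE-F (S44) / node GF-KCOVER-INST, leaf GF-KCOVER-INST-REDL (helper19), file 3:
**the archimedean binder `harch` of `Compl/Bridge.lean`.**

* `exists_pow_mul_inv_mem` (Mathlib only): `K` a field of characteristic `0`, `A` a valuation ring of
  `K` with `(p : K) ∈ A.nonunits`; every `c ≠ 0` with `c⁻¹` algebraic over `ℤ` satisfies
  `(p : K) ^ n * c⁻¹ ∈ A` for some `n` (so the value group of an algebraic extension of `ℚ` at a place
  above `p` is archimedean with respect to `v(p)`);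
  `exists_pow_mul_inv_mem_of_isAlgebraic` : the same for `[Algebra ℚ K] [Algebra.IsAlgebraic ℚ K]`;
  `exists_unif_pow_mul_inv_mem` : the same with `p` replaced by any `ϖ₀` with `ϖ₀ ^ m / p ∈ A`
  (`ϖ₀ = 1 − ζ_p`, `m = p − 1`);
* `harch_of_unram` : `R : RedData K F k Ft` unramified over the base, `ϖ₀ ∈ R.A` a nonunit with
  `∀ c ≠ 0, ∃ n, ϖ₀ ^ n * c⁻¹ ∈ R.A` ⟹
  `∀ γ : ValueGroup R.Rw, γ ≠ 0 → ∃ n, R.Rw.valuation (algebraMap K F ϖ₀) ^ n < γ`
  (every value of `R.Rw` is the value of a constant);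
* `harch_of_unram_comap` : the form consumed by `Bridge.sheetK` (`v` on `E₁`, `incl ϖ = algebraMap ϖ₀`).
-/
import Mathlib
import Fermat.Agent.GJ.J1.Defs
import Fermat.Agent.GF.Trop.OrdRed

set_option autoImplicit false
set_option linter.unusedSectionVars false

noncomputable section

namespace Fermat.Agent.GF.KCover.Compl.Harch

/-! ### valuation rings above `p` in algebraic extensions of `ℚ` -/

section Arch

variable {K : Type*} [Field K] [CharZero K] (A : ValuationSubring K) {p : ℕ}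

theorem natCast_mem' (n : ℕ) : (n : K) ∈ A := natCast_mem A n

theorem intCast_mem' (n : ℤ) : (n : K) ∈ A := intCast_mem A n

/-- an integer prime to `p` is a unit at a place above `p`. -/
theorem inv_natCast_mem (hp : p.Prime) (hpA : (p : K) ∈ A.nonunits) {m : ℕ} (hm : ¬ p ∣ m) :
    ((m : K))⁻¹ ∈ A := by
  have hcop : IsCoprime (m : ℤ) (p : ℤ) := by
    rw [Int.isCoprime_iff_gcd_eq_one, Int.gcd_natCast_natCast]
    exact ((Nat.Prime.coprime_iff_not_dvd hp).2 hm).symm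
  obtain ⟨a, b, hab⟩ := hcop
  have hm0 : (m : K) ≠ 0 := by
    intro h0
    have : m = 0 := by exact_mod_cast h0
    exact hm (this ▸ dvd_zero p)
  -- `v (m) = 1`
  by_contra hinv
  have h1 : A.valuation (m : K) < 1 := by
    rw [← A.valuation_le_one_iff, map_inv₀, not_le] at hinv
    exact (one_lt_inv₀ (zero_lt_iff.2 ((map_ne_zero _).2 hm0))).1 hinv
  have h2 : A.valuation (p : K) < 1 := (A.mem_nonunits_iff).1 hpA
  have h3 : A.valuation ((a : K) * (m : K) + (b : K) * (p : K)) < 1 := by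
    refine (A.valuation.map_add _ _).trans_lt (max_lt ?_ ?_)
    · rw [map_mul]
      calc A.valuation (a : K) * A.valuation (m : K) ≤ 1 * A.valuation (m : K) := by
            gcongr
            exact (A.valuation_le_one_iff _).2 (intCast_mem' A a)
        _ = A.valuation (m : K) := one_mul _
        _ < 1 := h1
    · rw [map_mul]
      calc A.valuation (b : K) * A.valuation (p : K) ≤ 1 * A.valuation (p : K) := by
            gcongr
            exact (A.valuation_le_one_iff _).2 (intCast_mem' A b)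
        _ = A.valuation (p : K) := one_mul _
        _ < 1 := h2
  have h4 : ((a : K) * (m : K) + (b : K) * (p : K)) = 1 := by
    have := congrArg (fun z : ℤ => (z : K)) hab
    simpa using this
  rw [h4, map_one] at h3
  exact lt_irrefl _ h3

/-- a nonzero integer divides a power of `p` in `A`. -/
theorem exists_pow_mul_inv_intCast_mem (hp : p.Prime) (hpA : (p : K) ∈ A.nonunits) {m : ℤ}
    (hm : m ≠ 0) : ∃ n : ℕ, (p : K) ^ n * ((m : K))⁻¹ ∈ A := by
  have hm' : m.natAbs ≠ 0 := Int.natAbs_ne_zero.2 hm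
  obtain ⟨e, m', hm'p, hmm'⟩ := Nat.exists_eq_pow_mul_and_not_dvd hm' p hp.ne_one
  refine ⟨e, ?_⟩
  have habs : (m : K) = (m.natAbs : K) ∨ (m : K) = -(m.natAbs : K) := by
    rcases Int.natAbs_eq m with h | h
    · left
      calc (m : K) = ((m.natAbs : ℤ) : K) := by rw [← h]
        _ = (m.natAbs : K) := Int.cast_natCast _
    · right
      calc (m : K) = ((-(m.natAbs : ℤ) : ℤ) : K) := by rw [← h]
        _ = -(m.natAbs : K) := by rw [Int.cast_neg, Int.cast_natCast]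
  have hp0 : (p : K) ≠ 0 := by exact_mod_cast hp.ne_zero
  have key : (p : K) ^ e * ((m.natAbs : K))⁻¹ = ((m' : K))⁻¹ := by
    rw [hmm']
    push_cast
    rw [mul_inv, ← mul_assoc, mul_inv_cancel₀ (pow_ne_zero e hp0), one_mul]
  rcases habs with h | h
  · rw [h, key]
    exact inv_natCast_mem A hp hpA hm'p
  · rw [h, inv_neg, mul_neg, key]
    exact neg_mem (inv_natCast_mem A hp hpA hm'p)

/-- **archimedean property at a place above `p`**: for `c ≠ 0` with `c⁻¹` algebraic over `ℤ` some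
`p ^ n / c` is integral at `A`. -/
theorem exists_pow_mul_inv_mem (hp : p.Prime) (hpA : (p : K) ∈ A.nonunits) {c : K} (hc : c ≠ 0)
    (halg : IsAlgebraic ℤ c⁻¹) : ∃ n : ℕ, (p : K) ^ n * c⁻¹ ∈ A := by
  obtain ⟨m, hm0, hint⟩ := halg.exists_integral_multiple
  -- `m • c⁻¹` is integral over `ℤ`, hence over `A`, hence in `A`
  have hmem : (m : K) * c⁻¹ ∈ A := by
    have h1 : IsIntegral A (m • c⁻¹) := hint.tower_top
    obtain ⟨y, hy⟩ := (IsIntegrallyClosed.isIntegral_iff (R := A) (K := K)).1 h1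
    have : (m : K) * c⁻¹ = m • c⁻¹ := by rw [zsmul_eq_mul]
    rw [this, ← hy]
    exact y.2
  obtain ⟨n, hn⟩ := exists_pow_mul_inv_intCast_mem A hp hpA hm0
  refine ⟨n, ?_⟩
  have hmK : (m : K) ≠ 0 := by exact_mod_cast hm0
  have e : (p : K) ^ n * c⁻¹ = ((p : K) ^ n * ((m : K))⁻¹) * ((m : K) * c⁻¹) := by
    field_simp
  rw [e]
  exact mul_mem hn hmem

/-- the same for an algebraic extension of `ℚ`. -/
theorem exists_pow_mul_inv_mem_of_isAlgebraic [Algebra ℚ K] [Algebra.IsAlgebraic ℚ K]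
    (hp : p.Prime) (hpA : (p : K) ∈ A.nonunits) {c : K} (hc : c ≠ 0) :
    ∃ n : ℕ, (p : K) ^ n * c⁻¹ ∈ A :=
  exists_pow_mul_inv_mem A hp hpA hc
    ((IsFractionRing.isAlgebraic_iff ℤ ℚ K).2 (Algebra.IsAlgebraic.isAlgebraic c⁻¹))

/-- the same with respect to any `ϖ₀` a power of which is divisible by `p` in `A`. -/
theorem exists_unif_pow_mul_inv_mem (hp : p.Prime) (hpA : (p : K) ∈ A.nonunits) {ϖ₀ : K} {m : ℕ}
    (hϖ : ϖ₀ ^ m * ((p : K))⁻¹ ∈ A) {c : K} (hc : c ≠ 0) (halg : IsAlgebraic ℤ c⁻¹) :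
    ∃ n : ℕ, ϖ₀ ^ n * c⁻¹ ∈ A := by
  obtain ⟨n, hn⟩ := exists_pow_mul_inv_mem A hp hpA hc halg
  refine ⟨m * n, ?_⟩
  have hp0 : (p : K) ≠ 0 := by exact_mod_cast hp.ne_zero
  have e : ϖ₀ ^ (m * n) * c⁻¹ = (ϖ₀ ^ m * ((p : K))⁻¹) ^ n * ((p : K) ^ n * c⁻¹) := by
    rw [pow_mul, mul_pow, inv_pow]
    field_simp
  rw [e]
  exact mul_mem (pow_mem hϖ n) hn

/-- the case `K = ℚ̄`, `ϖ₀` with `ϖ₀ ^ m / p ∈ A` (e.g. `ϖ₀ = 1 − ζ_p`, `m = p − 1`). -/
theorem exists_unif_pow_mul_inv_mem_Qbar (A : ValuationSubring (AlgebraicClosure ℚ)) {p : ℕ}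
    (hp : p.Prime) (hpA : (p : AlgebraicClosure ℚ) ∈ A.nonunits) {ϖ₀ : AlgebraicClosure ℚ} {m : ℕ}
    (hϖ : ϖ₀ ^ m * ((p : AlgebraicClosure ℚ))⁻¹ ∈ A) {c : AlgebraicClosure ℚ} (hc : c ≠ 0) :
    ∃ n : ℕ, ϖ₀ ^ n * c⁻¹ ∈ A := by
  have h := (AlgebraicClosure.isAlgebraic ℚ).isAlgebraic c⁻¹
  exact exists_unif_pow_mul_inv_mem A hp hpA hϖ hc ((IsFractionRing.isAlgebraic_iff ℤ ℚ _).2 h)

end Arch

/-! ### `harch` for an unramified reduction datum -/

section Unram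

open Fermat.Agent.GJ.J1 Fermat.Agent.GF.Trop

variable {K F k Ft : Type*} [Field K] [Field F] [Algebra K F] [Field k] [Field Ft] [Algebra k Ft]
variable (R : RedData K F k Ft)

/-- the valuation of a constant which is a unit of the base is `1`. -/
theorem valuation_algebraMap_le_one_iff (a : K) :
    R.Rw.valuation (algebraMap K F a) ≤ 1 ↔ a ∈ R.A := by
  rw [ValuationSubring.valuation_le_one_iff, ← R.mem_A_iff]

/-- a nonunit constant of the base has valuation `< 1` in `F`. -/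
theorem valuation_algebraMap_lt_one {ϖ₀ : K} (hϖA : ϖ₀ ∈ R.A) (hϖ : ϖ₀⁻¹ ∉ R.A) :
    R.Rw.valuation (algebraMap K F ϖ₀) < 1 := by
  have h1 : R.Rw.valuation (algebraMap K F ϖ₀) ≤ 1 := (valuation_algebraMap_le_one_iff R _).2 hϖA
  refine lt_of_le_of_ne h1 fun h => hϖ ?_
  rw [← valuation_algebraMap_le_one_iff, map_inv₀, map_inv₀, h, inv_one]

/-- **`harch` from unramifiedness**: every value of `R.Rw` is the value of a constant, and the base is
archimedean with respect to `ϖ₀`. -/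
theorem harch_of_unram (hun : Unram R) {ϖ₀ : K} (hϖA : ϖ₀ ∈ R.A) (hϖ : ϖ₀⁻¹ ∉ R.A)
    (hK : ∀ c : K, c ≠ 0 → ∃ n : ℕ, ϖ₀ ^ n * c⁻¹ ∈ R.A)
    (γ : ValuationSubring.ValueGroup R.Rw) (hγ : γ ≠ 0) :
    ∃ n : ℕ, R.Rw.valuation (algebraMap K F ϖ₀) ^ n < γ := by
  obtain ⟨x, rfl⟩ := R.Rw.valuation_surjective γ
  have hx0 : x ≠ 0 := by
    rintro rfl
    exact hγ (map_zero _)
  obtain ⟨c, hc0, hm, hmi⟩ := hun x hx0
  have hcF : algebraMap K F c ≠ 0 := by simpa using hc0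
  -- `v (c x) = 1`
  have h1 : R.Rw.valuation (algebraMap K F c * x) = 1 := by
    apply le_antisymm ((ValuationSubring.valuation_le_one_iff _ _).2 hm)
    have h2 : R.Rw.valuation (algebraMap K F c * x)⁻¹ ≤ 1 :=
      (ValuationSubring.valuation_le_one_iff _ _).2 hmi
    rw [map_inv₀] at h2
    have hne : R.Rw.valuation (algebraMap K F c * x) ≠ 0 :=
      (map_ne_zero _).2 (mul_ne_zero hcF hx0)
    exact (inv_le_one₀ (zero_lt_iff.2 hne)).1 h2
  -- `v x = v (c⁻¹)`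
  have hvx : R.Rw.valuation x = R.Rw.valuation (algebraMap K F c⁻¹) := by
    rw [map_mul] at h1
    rw [map_inv₀, map_inv₀]
    exact eq_inv_of_mul_eq_one_right h1
  obtain ⟨n, hn⟩ := hK c⁻¹ (inv_ne_zero hc0)
  rw [inv_inv] at hn
  refine ⟨n + 1, ?_⟩
  have hle : R.Rw.valuation (algebraMap K F ϖ₀) ^ n ≤ R.Rw.valuation x := by
    have h3 : R.Rw.valuation (algebraMap K F (ϖ₀ ^ n * c)) ≤ 1 :=
      (valuation_algebraMap_le_one_iff R _).2 hn
    rw [map_mul, map_mul, map_pow, map_pow] at h3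
    rw [hvx, map_inv₀, map_inv₀]
    have hc' : 0 < R.Rw.valuation (algebraMap K F c) := zero_lt_iff.2 ((map_ne_zero _).2 hcF)
    rw [← one_mul (R.Rw.valuation (algebraMap K F c))⁻¹]
    exact (le_mul_inv_iff₀ hc').2 h3
  have hlt : R.Rw.valuation (algebraMap K F ϖ₀) < 1 := valuation_algebraMap_lt_one R hϖA hϖ
  have hx' : 0 < R.Rw.valuation x := zero_lt_iff.2 ((map_ne_zero _).2 hx0)
  calc R.Rw.valuation (algebraMap K F ϖ₀) ^ (n + 1)
      = R.Rw.valuation (algebraMap K F ϖ₀) ^ n * R.Rw.valuation (algebraMap K F ϖ₀) := pow_succ _ _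
    _ ≤ R.Rw.valuation x * R.Rw.valuation (algebraMap K F ϖ₀) := by gcongr
    _ < R.Rw.valuation x * 1 := by gcongr
    _ = R.Rw.valuation x := mul_one _

/-- the form consumed by `Bridge.sheetK`: `v` on a subfield `E₁`, uniformiser `ϖ` with
`incl ϖ = algebraMap K F ϖ₀`. -/
theorem harch_of_unram_comap (hun : Unram R) {ϖ₀ : K} (hϖA : ϖ₀ ∈ R.A) (hϖ : ϖ₀⁻¹ ∉ R.A)
    (hK : ∀ c : K, c ≠ 0 → ∃ n : ℕ, ϖ₀ ^ n * c⁻¹ ∈ R.A)
    {E₁ : Type*} [Field E₁] {v : Valuation E₁ (ValuationSubring.ValueGroup R.Rw)}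
    (incl : E₁ →+* F) (hincl : ∀ a : E₁, R.Rw.valuation (incl a) = v a) {ϖ : E₁}
    (hϖ₁ : incl ϖ = algebraMap K F ϖ₀)
    (γ : ValuationSubring.ValueGroup R.Rw) (hγ : γ ≠ 0) : ∃ n : ℕ, v ϖ ^ n < γ := by
  obtain ⟨n, hn⟩ := harch_of_unram R hun hϖA hϖ hK γ hγ
  exact ⟨n, by rw [← hincl, hϖ₁]; exact hn⟩

end Unram

end Fermat.Agent.GF.KCover.Compl.Harch
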