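/-
GATE-F (S40/S44) / GF-KCOVER-INST, leaf (L-c) (helper42): **`Δ~`-invariance of the node order of a
sheet, POINTWISE form** — the binder `inn` of `Node/NL0Plug.nl_on_subgroup` (helper84) for an abstract
`a : Us →* Us`.

`R : RedData K F k Ft`, `σ : F ≃+* F` valuation preserving (`hσ`), mapping constants to constants
(`hσK`: the arithmetic action of an element of the decomposition group) and acting trivially on the
residue field (`hres`: an element of the inertia group); `tauL R σ hσ` its extension to the
completion (helper19 `Compl/RedAut`); `sheet R e he` the reduction datum of a sheet of the cover.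

* `ordRed_eq_of_red_eq` : (abstract) if `c' y'` is integral with the same reduction as the unit
  `c y`, then `ordRed y' = ordRed y`;
* `ordRed_sheet_eq_of_tauL` : `e y' = tauL (e y) ⟹ ordRed (sheet) y' = ordRed (sheet) y`
  (NO rationality assumption on `y`: the normalising constant is moved by `σ`);
* `nodeOrd_sheet_eq_of_tauL`, `inn_of_tauL` : the same on `nodeOrd`, for a map `a` on a subgroup
  with `e (a u) = tauL (e u)` pointwise (from `Field/Split.emb_comp_eq` + the bridge).
-/
import Fermat.Agent.GF.KCover.Compl.RedAut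

set_option autoImplicit false
set_option linter.unusedSectionVars false
set_option linter.dupNamespace false

noncomputable section

open AlgebraicCurve

namespace Fermat.Agent.GF.KCover.Compl.NodeOrdTau

open Fermat.Agent.GJ.J1 Fermat.Agent.S24 Fermat.Agent.GF.Trop Fermat.Agent.GF.KCover.Compl
open Fermat.Agent.GF.KCover.Node.OrdRedExt Fermat.Agent.GF.KCover.Compl.RedCompl
open Fermat.Agent.GF.KCover.Compl.RedAut

variable {K F k Ft : Type*} [Field K] [Field F] [Algebra K F] [Field k] [Field Ft] [Algebra k Ft]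

/-- if `c' y'` is integral with the same reduction as the unit `c y`, the node orders agree. -/
theorem ordRed_eq_of_red_eq {F' : Type*} [Field F'] [Algebra K F'] (R' : RedData K F' k Ft)
    (hun' : Unram R') (Pl : Place k Ft) {y y' : F'} (hy' : y' ≠ 0) {c c' : K}
    (hU : IsU R' (algebraMap K F' c * y)) (hm' : algebraMap K F' c' * y' ∈ R'.Rw)
    (hred : R'.red ⟨algebraMap K F' c' * y', hm'⟩ = R'.red ⟨algebraMap K F' c * y, hU.2.1⟩) :
    ordRed R' hun' Pl y' = ordRed R' hun' Pl y := by
  have hy : y ≠ 0 := right_ne_zero_of_mul hU.1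
  have hU' : IsU R' (algebraMap K F' c' * y') :=
    isU_of_red_ne_zero hm' (by rw [hred]; exact hU.red_ne_zero)
  rw [ordRed_eq hun' Pl hy' hU', ordRed_eq hun' Pl hy hU, hred]

variable (R : RedData K F k Ft) (hun : Unram R)
  (σ : F ≃+* F) (hσ : ∀ x : F, R.Rw.valuation (σ x) = R.Rw.valuation x)
  (hσK : ∀ c : K, ∃ c' : K, σ (algebraMap K F c) = algebraMap K F c')
  (hres : ∀ (a : F) (ha : a ∈ R.Rw), R.red ⟨σ a, map_mem_Rw R σ hσ ha⟩ = R.red ⟨a, ha⟩)

variable {F' : Type*} [Field F'] [Algebra K F'] [Algebra F F'] [IsScalarTower K F F']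
  (e : F' →ₐ[K] LR R) (he : ∀ x : F, e (algebraMap F F' x) = algebraMap F (LR R) x)

include hσK hres in
/-- **pointwise `Δ~`-invariance of the node order of a sheet.** -/
theorem ordRed_sheet_eq_of_tauL (Pl : Place k Ft) {y y' : F'}
    (hyy' : e y' = tauL R σ hσ (e y)) :
    ordRed (sheet R e he) (unram_sheet R hun e he) Pl y' =
      ordRed (sheet R e he) (unram_sheet R hun e he) Pl y := by
  by_cases hy : y = 0
  · subst hy
    rw [map_zero, map_zero] at hyy'
    have : y' = 0 := (map_eq_zero_iff e (e : F' →+* LR R).injective).1 hyy'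
    rw [this]
  have hy' : y' ≠ 0 := by
    intro h0
    rw [h0, map_zero] at hyy'
    have h1 : e y = 0 := by
      have := hyy'.symm
      rwa [map_eq_zero_iff _ (tauL R σ hσ).injective] at this
    exact hy ((map_eq_zero_iff e (e : F' →+* LR R).injective).1 h1)
  obtain ⟨c, hc0, hm, hmi⟩ := unram_sheet R hun e he y hy
  have hcF : algebraMap K F' c ≠ 0 := by
    rw [Ne, map_eq_zero_iff _ (algebraMap K F').injective]
    exact hc0
  have hU : IsU (sheet R e he) (algebraMap K F' c * y) := ⟨mul_ne_zero hcF hy, hm, hmi⟩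
  obtain ⟨c', hc'⟩ := hσK c
  -- `e (c' y') = tauL (e (c y))`
  have key : e (algebraMap K F' c' * y') = tauL R σ hσ (e (algebraMap K F' c * y)) := by
    rw [map_mul, map_mul, map_mul, hyy', e.commutes, e.commutes, algebraMap_K_eq, algebraMap_K_eq,
      tauL_j, hc']
  have hz : e (algebraMap K F' c * y) ∈ (redCompl R).Rw := hU.2.1
  have hm' : algebraMap K F' c' * y' ∈ (sheet R e he).Rw := by
    show e (algebraMap K F' c' * y') ∈ (redCompl R).Rw
    rw [key]
    exact redCompl_map_mem R σ hσ hz
  refine ordRed_eq_of_red_eq (sheet R e he) _ Pl hy' hU hm' ?_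
  rw [sheet_red, sheet_red, ← redCompl_red_map R σ hσ hres hz]
  congr 1
  exact Subtype.ext key

include hσK hres in
/-- the same on the node order of a subgroup of units. -/
theorem nodeOrd_sheet_eq_of_tauL (Pl : Place k Ft) (G : Subgroup F'ˣ) (u u' : G)
    (h : e (((u' : F'ˣ) : F')) = tauL R σ hσ (e (((u : F'ˣ) : F')))) :
    nodeOrd (sheet R e he) (unram_sheet R hun e he) Pl G u' =
      nodeOrd (sheet R e he) (unram_sheet R hun e he) Pl G u := by
  unfold nodeOrd
  exact ordRed_sheet_eq_of_tauL R hun σ hσ hσK hres e he Pl h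

include hσK hres in
/-- **the binder `inn` of `NL0Plug.nl_on_subgroup`** from `e ∘ a = tauL ∘ e` pointwise on `Us`. -/
theorem inn_of_tauL (Pl : Place k Ft) (G : Subgroup F'ˣ) (Us : Subgroup G) (a : Us →* Us)
    (ha : ∀ u : Us, e ((((a u : Us) : G) : F'ˣ) : F') =
      tauL R σ hσ (e ((((u : Us) : G) : F'ˣ) : F'))) (u : Us) :
    nodeOrd (sheet R e he) (unram_sheet R hun e he) Pl G ((a u : Us) : G) =
      nodeOrd (sheet R e he) (unram_sheet R hun e he) Pl G ((u : Us) : G) :=
  nodeOrd_sheet_eq_of_tauL R hun σ hσ hσK hres e he Pl G _ _ (ha u)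

end Fermat.Agent.GF.KCover.Compl.NodeOrdTau

end
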