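/-
GATE-F (S40/S44) / GF-KCOVER-INST, leaf (L-c) (helper42): **the modular instance of the inertial
data** `(σ, hσ, hσK, hres)` of `Compl/NodeOrdTau` (and `Compl/RedAut`, helper19): for `τ` in the
inertia group of `A`, `σ := arithmeticRingAut τ` on `F_N = FK N` over `ℚ̄`, and
`R ∈ {redDataBar N A, redData2 N A h}` (the two Gauss valuations):

* `hσ₁`, `hσ₂`  : `σ` preserves the valuation (`Int/FixedField.valuation_arith_eq`, helper56; any
  `τ` in the decomposition group);
* `hσK`        : `σ` maps constants to constants;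
* `hres₁`, `hres₂` : `σ` acts trivially on the residue function field (`GalVal.inert`);
* `inn₁`, `inn₂` : **the binder `inn` of `NL0Plug.nl_on_subgroup`** for a sheet of a cover `F'` of
  `FK N` above the first / second Gauss valuation, for `a : Us →* Us` with
  `e (a u) = tauL (e u)` pointwise.
-/
import Fermat.Agent.GF.KCover.Compl.NodeOrdTau
import Fermat.Agent.GF.KCover.Int.FixedField
import Fermat.Agent.GS.F.KerBridge

set_option autoImplicit false
set_option linter.unusedSectionVars false
set_option linter.dupNamespace false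

noncomputable section

open AlgebraicCurve ModularCurve IsLocalRing

namespace Fermat.Agent.GF.KCover.Compl.InertialMod

open Fermat.Agent.GJ.J1 Fermat.Agent.GJ.J1.Val Fermat.Agent.S24 Fermat.Agent.GF.Trop
open Fermat.Agent.GK.SS Fermat.Agent.GK.AL Fermat.Agent.GJ.KumGroup
open Fermat.Agent.GF.KCover.Compl Fermat.Agent.GF.KCover.Compl.RedCompl
open Fermat.Agent.GF.KCover.Compl.RedAut Fermat.Agent.GF.KCover.Compl.NodeOrdTau
open Fermat.Agent.GF.KCover.Node.OrdRedExt Fermat.Agent.GF.KCover.Int

local notation "Qb" => AlgebraicClosure ℚ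
local notation "GQ" => (AlgebraicClosure ℚ ≃ₐ[ℚ] AlgebraicClosure ℚ)

variable (N : ℕ) [NeZero N] (A : ValuationSubring Qb)

/-- the arithmetic action of `τ` on `F_N` -/
abbrev sig (τ : GQ) : FK N ≃+* FK N := arithmeticRingAut (modularFunctionFieldFull N) τ

/-- constants go to constants -/
theorem hσK (τ : GQ) (c : Qb) :
    ∃ c' : Qb, sig N τ (algebraMap Qb (FK N) c) = algebraMap Qb (FK N) c' :=
  ⟨τ c, arithmeticRingAut_algebraMap (modularFunctionFieldFull N) τ c⟩

section First

variable {q : ℕ} (hq : q.Prime) (hA : A.LiesOverPrime q)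

include hq hA in
/-- the decomposition group preserves the first Gauss valuation -/
theorem hσ₁ {τ : GQ} (hτ : τ ∈ A.decompositionSubgroup ℚ) (x : FK N) :
    (redDataBar N A).Rw.valuation (sig N τ x) = (redDataBar N A).Rw.valuation x :=
  valuation_arith_eq (Fermat.Agent.GK.SS.galVal1 N A) hq hA hτ x

include hq hA in
/-- inertia acts trivially on the residue function field of the first Gauss valuation -/
theorem hres₁ {τ : GQ} (hτ : τ ∈ A.inertiaSubgroupIn ℚ) (a : FK N)
    (ha : a ∈ (redDataBar N A).Rw) :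
    (redDataBar N A).red ⟨sig N τ a, map_mem_Rw (redDataBar N A) (sig N τ)
      (hσ₁ N A hq hA (Fermat.Agent.S05.mem_decompositionSubgroup_of_mem_inertiaSubgroupIn hτ)) ha⟩ =
      (redDataBar N A).red ⟨a, ha⟩ := by
  have h1 := (Fermat.Agent.GK.SS.galVal1 N A).inert τ hτ a ha
  have h2 : ((⟨sig N τ a, map_mem_Rw (redDataBar N A) (sig N τ)
      (hσ₁ N A hq hA (Fermat.Agent.S05.mem_decompositionSubgroup_of_mem_inertiaSubgroupIn hτ)) ha⟩ :
        (redDataBar N A).Rw) - ⟨a, ha⟩) ∈ IsLocalRing.maximalIdeal (redDataBar N A).Rw := by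
    rw [ValuationSubring.valuation_lt_one_iff]
    exact h1
  have h3 := ((redDataBar N A).red_eq_zero_iff _).2 h2
  rw [map_sub, sub_eq_zero] at h3
  exact h3

variable {F' : Type*} [Field F'] [Algebra Qb F'] [Algebra (FK N) F'] [IsScalarTower Qb (FK N) F']

include hq hA in
/-- **`inn` for a sheet above the first Gauss valuation.** -/
theorem inn₁ {τ : GQ} (hτ : τ ∈ A.inertiaSubgroupIn ℚ)
    (e : F' →ₐ[Qb] LR (redDataBar N A))
    (he : ∀ x : FK N, e (algebraMap (FK N) F' x) = algebraMap (FK N) (LR (redDataBar N A)) x)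
    (Pl : Place (ResidueField A) (FresBar N A)) (G : Subgroup F'ˣ) (Us : Subgroup G)
    (a : Us →* Us)
    (ha : ∀ u : Us, e ((((a u : Us) : G) : F'ˣ) : F') =
      tauL (redDataBar N A) (sig N τ)
        (hσ₁ N A hq hA (Fermat.Agent.S05.mem_decompositionSubgroup_of_mem_inertiaSubgroupIn hτ))
        (e ((((u : Us) : G) : F'ˣ) : F'))) (u : Us) :
    nodeOrd (sheet (redDataBar N A) e he)
        (unram_sheet (redDataBar N A) (Fermat.Agent.GS.F.unram_redDataBar N A) e he) Pl G
        ((a u : Us) : G) =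
      nodeOrd (sheet (redDataBar N A) e he)
        (unram_sheet (redDataBar N A) (Fermat.Agent.GS.F.unram_redDataBar N A) e he) Pl G
        ((u : Us) : G) :=
  inn_of_tauL (redDataBar N A) (Fermat.Agent.GS.F.unram_redDataBar N A) (sig N τ) _
    (hσK N τ) (hres₁ N A hq hA hτ) e he Pl G Us a ha u

end First

section Second

variable {q : ℕ} (h : ExactDvd q N) (hA : A.LiesOverPrime q)

include hA in
/-- the decomposition group preserves the second Gauss valuation -/
theorem hσ₂ {τ : GQ} (hτ : τ ∈ A.decompositionSubgroup ℚ) (x : FK N) :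
    (redData2 N A h).Rw.valuation (sig N τ x) = (redData2 N A h).Rw.valuation x :=
  valuation_arith_eq (Fermat.Agent.GK.SS.galVal2 N A h) h.prime hA hτ x

include hA in
/-- inertia acts trivially on the residue function field of the second Gauss valuation -/
theorem hres₂ {τ : GQ} (hτ : τ ∈ A.inertiaSubgroupIn ℚ) (a : FK N)
    (ha : a ∈ (redData2 N A h).Rw) :
    (redData2 N A h).red ⟨sig N τ a, map_mem_Rw (redData2 N A h) (sig N τ)
      (hσ₂ N A h hA (Fermat.Agent.S05.mem_decompositionSubgroup_of_mem_inertiaSubgroupIn hτ)) ha⟩ =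
      (redData2 N A h).red ⟨a, ha⟩ := by
  have h1 := (Fermat.Agent.GK.SS.galVal2 N A h).inert τ hτ a ha
  have h2 : ((⟨sig N τ a, map_mem_Rw (redData2 N A h) (sig N τ)
      (hσ₂ N A h hA (Fermat.Agent.S05.mem_decompositionSubgroup_of_mem_inertiaSubgroupIn hτ)) ha⟩ :
        (redData2 N A h).Rw) - ⟨a, ha⟩) ∈ IsLocalRing.maximalIdeal (redData2 N A h).Rw := by
    rw [ValuationSubring.valuation_lt_one_iff]
    exact h1
  have h3 := ((redData2 N A h).red_eq_zero_iff _).2 h2
  rw [map_sub, sub_eq_zero] at h3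
  exact h3

variable {F' : Type*} [Field F'] [Algebra Qb F'] [Algebra (FK N) F'] [IsScalarTower Qb (FK N) F']

include hA in
/-- **`inn` for a sheet above the second Gauss valuation.** -/
theorem inn₂ {τ : GQ} (hτ : τ ∈ A.inertiaSubgroupIn ℚ)
    (e : F' →ₐ[Qb] LR (redData2 N A h))
    (he : ∀ x : FK N, e (algebraMap (FK N) F' x) = algebraMap (FK N) (LR (redData2 N A h)) x)
    (Pl : Place (ResidueField A) (FresBar N A)) (G : Subgroup F'ˣ) (Us : Subgroup G)
    (a : Us →* Us)
    (ha : ∀ u : Us, e ((((a u : Us) : G) : F'ˣ) : F') =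
      tauL (redData2 N A h) (sig N τ)
        (hσ₂ N A h hA (Fermat.Agent.S05.mem_decompositionSubgroup_of_mem_inertiaSubgroupIn hτ))
        (e ((((u : Us) : G) : F'ˣ) : F'))) (u : Us) :
    nodeOrd (sheet (redData2 N A h) e he)
        (unram_sheet (redData2 N A h) (Fermat.Agent.GS.F.unram_redData2 N A h) e he) Pl G
        ((a u : Us) : G) =
      nodeOrd (sheet (redData2 N A h) e he)
        (unram_sheet (redData2 N A h) (Fermat.Agent.GS.F.unram_redData2 N A h) e he) Pl G
        ((u : Us) : G) :=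
  inn_of_tauL (redData2 N A h) (Fermat.Agent.GS.F.unram_redData2 N A h) (sig N τ) _
    (hσK N τ) (hres₂ N A h hA hτ) e he Pl G Us a ha u

end Second

end Fermat.Agent.GF.KCover.Compl.InertialMod

end
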