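/-
GATE-F (S44) / node GF-KCOVER-INST, leaf GF-KCOVER-INST-REDL (helper19), file 5:
**the bridge is equivariant for the tame automorphism** — the binder `ha` of helper42's
`NodeOrdTau.inn_of_tauL` / `InertialMod.inn₁`, `inn₂`.

`τ` a `v`-preserving automorphism of `E₁ = F_{K'}`, `σ` a `V`-preserving automorphism of the big field
`F` with `incl ∘ τ = σ ∘ incl`.  Then

* `beta_tauC : beta (tauC h τ hτ z) = ext V σ hσ (beta z)` (both sides continuous, equal on `jc E₁`);
* **`embV_incl_tame`** : for `x : E' ≃+* E'` over `τ`, commuting with the deck transformation,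
  `x ^ d = 1`, `τ ^ d = 1`, `d` prime to `p`:
  `embV … k (incl' (x y)) = ext V σ hσ (embV … k (incl' y))` for every `y : E'` — helper3's
  `Pack.emb_tame` transported to the completion over `ℚ̄`, although `σ` itself is NOT of finite order;
* `embK_incl_tame` : the same for the `K`-algebra homs `embK` of the sheets, with
  `RedAut.tauL R σ hσ` (= the `ha` of `inn_of_tauL` in pointwise form).
-/
import Mathlib
import Fermat.Agent.GF.KCover.Compl.Bridge

set_option autoImplicit false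
set_option linter.unusedSectionVars false

noncomputable section

open Topology Filter UniformSpace Polynomial

namespace Fermat.Agent.GF.KCover.Compl.BridgeTame

open Fermat.Agent.GF.KCover.Field Fermat.Agent.GF.KCover.Field.Disc
  Fermat.Agent.GF.KCover.Field.Pack Fermat.Agent.GF.KCover.Compl.Bridge

/-! ### generic form -/

namespace Gen

variable {E₁ : Type*} [Field E₁] {Γ₀ : Type*} [LinearOrderedCommGroupWithZero Γ₀]
variable {v : Valuation E₁ Γ₀} {ϖ : E₁} (h : IsDisc v ϖ)
variable {F : Type*} [Field F] [hv : Valued F Γ₀]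
variable (incl : E₁ →+* F) (hincl : ∀ a, hv.v (incl a) = v a)
variable (harch : ∀ γ : Γ₀, γ ≠ 0 → ∃ n : ℕ, v ϖ ^ n < γ)
variable (τ : E₁ ≃+* E₁) (hτ : ∀ a, v (τ a) = v a)
variable (σ : F ≃+* F) (hσ : ∀ x, hv.v (σ x) = hv.v x) (hcomm : ∀ a, incl (τ a) = σ (incl a))

theorem continuous_tauC : Continuous (tauC h τ hτ) := by
  show Continuous (Fermat.Agent.GF.KCover.Field.Compl.extEquiv _ _)
  exact Fermat.Agent.GF.KCover.Field.Compl.continuous_extEquiv _ _

include hcomm in
theorem betaGen_tauC (z : Lc h) :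
    Bridge.Gen.betaGen h incl hincl harch (tauC h τ hτ z) =
      Fermat.Agent.GF.KCover.Compl.Gen.extEquiv σ hσ (Bridge.Gen.betaGen h incl hincl harch z) := by
  refine Completion.induction_on z ?_ ?_
  · refine isClosed_eq ((Bridge.Gen.continuous_betaGen h incl hincl harch).comp
      (continuous_tauC h τ hτ)) ?_
    have : Continuous (Fermat.Agent.GF.KCover.Compl.Gen.extEquiv σ hσ) :=
      Fermat.Agent.GF.KCover.Compl.Gen.continuous_extHom (σ : F →+* F) hσ
    exact this.comp (Bridge.Gen.continuous_betaGen h incl hincl harch)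
  · intro a
    have e : ((a : WithAbs (absD h)) : Lc h) = jc h a.ofAbs := rfl
    rw [e, tauC_jc, Bridge.Gen.betaGen_jc, Bridge.Gen.betaGen_jc,
      Fermat.Agent.GF.KCover.Compl.Gen.extEquiv_coe, hcomm]

end Gen

/-! ### into `Compl V` -/

section Main

variable {E₁ : Type*} [Field E₁] {Γ₀ : Type*} [LinearOrderedCommGroupWithZero Γ₀]
variable {v : Valuation E₁ Γ₀} {ϖ : E₁} (h : IsDisc v ϖ)
variable {F : Type*} [Field F] (V : Valuation F Γ₀)
variable (incl : E₁ →+* F) (hincl : ∀ a, V (incl a) = v a)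
variable (harch : ∀ γ : Γ₀, γ ≠ 0 → ∃ n : ℕ, v ϖ ^ n < γ)
variable (τ : E₁ ≃+* E₁) (hτ : ∀ a, v (τ a) = v a)
variable (σ : F ≃+* F) (hσ : ∀ x, V (σ x) = V x) (hcomm : ∀ a, incl (τ a) = σ (incl a))

include hcomm in
/-- **the bridge intertwines the two extended automorphisms.** -/
theorem beta_tauC (z : Lc h) :
    beta h V incl hincl harch (tauC h τ hτ z) = ext V σ hσ (beta h V incl hincl harch z) := by
  let _ := Valued.mk' V
  exact Gen.betaGen_tauC h incl hincl harch τ hτ σ hσ hcomm z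

section Cover

variable {E' : Type*} [Field E'] [Algebra E₁ E'] {p : ℕ} [NeZero p] {g₀ : E₁}
  (H₁ : IsAdjoinRoot E' (X ^ p - C g₀ : E₁[X])) {ζ : E₁} (hζ : IsPrimitiveRoot ζ p)
  {γ : Lc h} (hγ : γ ^ p = jc h g₀)
variable {F' : Type*} [Field F'] [Algebra F F']
  (H : IsAdjoinRoot F' (X ^ p - C (incl g₀) : F[X]))
  (incl' : E' →+* F')
  (hincl' : ∀ a : E₁, incl' (algebraMap E₁ E' a) = algebraMap F F' (incl a))
  (hroot : incl' H₁.root = H.root)
variable {x : E' ≃+* E'}
  (hx : IsOver (x : E' →+* E') (τ : E₁ →+* E₁))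
  (hxδ : Commute (x : E' →+* E') (deck H₁ hζ))

include hincl' hroot hx hxδ hcomm hτ in
/-- **tame equivariance on the big sheets**, for the `K'`-rational functions. -/
theorem embV_incl_tame (hg₀ : g₀ ≠ 0) {d : ℕ} (hd : Nat.Coprime d p)
    (hxd : (x : E' →+* E') ^ d = 1) (hτd : τ ^ d = 1) (k : ZMod p) (y : E') :
    embV h V incl hincl harch hζ hγ H k (incl' (x y)) =
      ext V σ hσ (embV h V incl hincl harch hζ hγ H k (incl' y)) := by
  rw [emb_incl h V incl hincl harch H₁ hζ hγ H incl' hincl' hroot k (x y),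
    emb_incl h V incl hincl harch H₁ hζ hγ H incl' hincl' hroot k y,
    emb_tame h H₁ hζ hγ τ hτ hx hxδ hg₀ hd hxd hτd k y,
    beta_tauC h V incl hincl harch τ hτ σ hσ hcomm]

end Cover

end Main

/-! ### the sheet form -/

section Sheets

open Fermat.Agent.GJ.J1 Fermat.Agent.GF.Trop Fermat.Agent.GF.KCover.Compl.RedCompl
  Fermat.Agent.GF.KCover.Compl.RedAut

variable {K F k Ft : Type*} [Field K] [Field F] [Algebra K F] [Field k] [Field Ft] [Algebra k Ft]
variable (R : RedData K F k Ft)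
variable {F' : Type*} [Field F'] [Algebra K F'] [Algebra F F'] [IsScalarTower K F F']
variable {E₁ : Type*} [Field E₁] {ϖ : E₁} {v : Valuation E₁ (ValuationSubring.ValueGroup R.Rw)}
variable (incl : E₁ →+* F) (hincl : ∀ a : E₁, R.Rw.valuation (incl a) = v a)
variable (h : IsDisc v ϖ)
variable (harch : ∀ γ : ValuationSubring.ValueGroup R.Rw, γ ≠ 0 → ∃ n : ℕ, v ϖ ^ n < γ)
variable {E' : Type*} [Field E'] [Algebra E₁ E'] {p : ℕ} [NeZero p] {g₀ : E₁}
  (H₁ : IsAdjoinRoot E' (X ^ p - C g₀ : E₁[X])) {ζ : E₁} (hζ : IsPrimitiveRoot ζ p)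
  {γ : Lc h} (hγ : γ ^ p = jc h g₀)
  (H : IsAdjoinRoot F' (X ^ p - C (incl g₀) : F[X]))
  (incl' : E' →+* F')
  (hincl' : ∀ a : E₁, incl' (algebraMap E₁ E' a) = algebraMap F F' (incl a))
  (hroot : incl' H₁.root = H.root)
variable (τ : E₁ ≃+* E₁) (hτ : ∀ a, v (τ a) = v a)
variable (σ : F ≃+* F) (hσ : ∀ x : F, R.Rw.valuation (σ x) = R.Rw.valuation x)
  (hcomm : ∀ a, incl (τ a) = σ (incl a))
variable {x : E' ≃+* E'}
  (hx : IsOver (x : E' →+* E') (τ : E₁ →+* E₁))
  (hxδ : Commute (x : E' →+* E') (deck H₁ hζ))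

include hincl' hroot hx hxδ hcomm hτ in
/-- **the binder `ha` of `NodeOrdTau.inn_of_tauL`, pointwise**: on the `K'`-rational functions the
`i`-th sheet embedding intertwines `x` and `tauL R σ hσ`. -/
theorem embK_incl_tame (hg₀ : g₀ ≠ 0) {d : ℕ} (hd : Nat.Coprime d p)
    (hxd : (x : E' →+* E') ^ d = 1) (hτd : τ ^ d = 1) (i : ZMod p) (y : E') :
    embK R incl hincl h harch hζ hγ H i (incl' (x y)) =
      tauL R σ hσ (embK R incl hincl h harch hζ hγ H i (incl' y)) :=
  BridgeTame.embV_incl_tame h R.Rw.valuation incl hincl harch τ hτ σ hσ hcomm H₁ hζ hγ H incl'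
    hincl' hroot hx hxδ hg₀ hd hxd hτd i y

end Sheets

end Fermat.Agent.GF.KCover.Compl.BridgeTame
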