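/-
GATE-F (S44) / node GF-KCOVER-INST, leaf GF-KCOVER-INST-REDL (helper19), file 6:
**the modular plug of the bridge** — `Compl/Bridge` + `Compl/BridgeTame` + `Compl/Harch` on helper3's
vocabulary (`Field/WDataOf`): `T : TameDatum N p A ζ`, `F₁ N A ζ = F_N^Γ`, `E' T = T.Fp^Γ`,
`isAdj T`, `isAdj' T`, `ζ₁ T`, `ϖ₁ T`, `g₁ T`, `toE' T`, `wOf T hD hγ`.

GENERAL (`R : RedData ℚ̄ (FK N) k Ft`, `v` a discrete valuation of `F₁` with `R.Rw.valuation ∘ coe = v`):
* `sheetT T R hincl hD harch hγ i : RedData ℚ̄ T.Fp k Ft` — the `i`-th sheet of the cover `T.Fp` above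
  `R` (root `= ζ^i · beta γ`), `redExt_sheetT`, `unram_sheetT`, `embT` (the `ℚ̄`-algebra embedding);
* **`isU_sheetT_iff`** : for `y : fixedUnits Γ T.Fp`:
  `IsU (sheetT … i) y ↔ Pack.wv hD (isAdj' T) (ζ₁_prim T) hγ i (toE' T y) = 0`
  (the right-hand side is `wOf T hD hγ i y = (wData …).w₁/w₂ i y` by `rfl`);
  `isU_sheetT_iff'`, `mem_sheetT_Rw_iff'` for arbitrary nonzero elements of `E' T`;
* `embT_tame` : tame equivariance `embT i (x y) = tauL R σ hσ (embT i y)` on `E' T`;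
* `harch_of_unram` : the binder `harch` from `Unram R` (`ϖ₀ = 1 − ζ`).
FIRST / SECOND Gauss valuation (`R = redDataBar N A`, `V = galVal1 N A` resp. `R = redData2 N A h`,
`V = galVal2 N A h`; `V.W = R.Rw` by `rfl`): `harch₁`, `sheet₁`, `redExt_sheet₁`, `unram_sheet₁`,
**`isU_sheet₁_iff : IsU (sheet₁ … i) y ↔ wOf T hD₁ hγ₁ i y = 0`** and the same with index `₂`.
-/
import Fermat.Agent.GF.KCover.Compl.BridgeTame
import Fermat.Agent.GF.KCover.Compl.Harch
import Fermat.Agent.GF.KCover.Field.WDataOf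
import Fermat.Agent.GS.F.KerBridge
import Fermat.Agent.GL.Local.TameZeta

set_option autoImplicit false
set_option linter.unusedSectionVars false
set_option linter.dupNamespace false

noncomputable section

namespace Fermat.Agent.GF.KCover.Compl.SheetsMod

open AlgebraicCurve ModularCurve Polynomial
open Fermat.Agent.GJ.J1 Fermat.Agent.GJ.J1.Val Fermat.Agent.S24 Fermat.Agent.GF.Trop
open Fermat.Agent.GJ.KumGroup Fermat.Agent.GK.SS Fermat.Agent.GK.AL
open Fermat.Agent.GF.F2Asm.KummerExt Fermat.Agent.GF.F2Asm.Inst Fermat.Agent.GF.KCover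
open Fermat.Agent.GF.KCover.Field Fermat.Agent.GF.KCover.Field.Disc
open Fermat.Agent.GF.KCover.Field.WDataOf
open Fermat.Agent.GF.KCover.Compl.RedCompl Fermat.Agent.GF.KCover.Compl.RedAut
open Fermat.Agent.GF.KCover.Node.OrdRedExt

variable {N : ℕ} [NeZero N] {p : ℕ} [hpF : Fact p.Prime] {A : ValuationSubring Kb} {ζ : Kb}

attribute [local instance] actFK algE'

variable (T : TameDatum N p A ζ)

/-- `isAdj T` with the constant term spelled through the `K'`-rational `g₁ T`. -/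
def isAdjS : IsAdjoinRoot T.Fp (X ^ p - C ((F₁ N A ζ).subtype (g₁ T)) : (FK N)[X]) := isAdj T

theorem isAdjS_root : (isAdjS T).root = T.G := isAdj_root T

theorem hroot : (E' T).subtype (isAdj' T).root = (isAdjS T).root :=
  (coe_isAdj'_root T).trans (isAdjS_root T).symm

theorem hincl' (a : F₁ N A ζ) : (E' T).subtype (algebraMap (F₁ N A ζ) (E' T) a) =
    algebraMap (FK N) T.Fp ((F₁ N A ζ).subtype a) := rfl

/-! ### general reduction datum -/

section General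

variable {k Ft : Type*} [Field k] [Field Ft] [Algebra k Ft] (R : RedData Kb (FK N) k Ft)
  {v : Valuation (F₁ N A ζ) (ValuationSubring.ValueGroup R.Rw)}
  (hincl : ∀ a : F₁ N A ζ, R.Rw.valuation ((F₁ N A ζ).subtype a) = v a)
  (hD : IsDisc v (ϖ₁ T))
  (harch : ∀ γ : ValuationSubring.ValueGroup R.Rw, γ ≠ 0 → ∃ n : ℕ, v (ϖ₁ T) ^ n < γ)
  {γ : Pack.Lc hD} (hγ : γ ^ p = Pack.jc hD (g₁ T))

/-- **the reduction datum of the `i`-th sheet of the cover above `R`.** -/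
def sheetT (i : ZMod p) : RedData Kb T.Fp k Ft :=
  Bridge.sheetK R (F₁ N A ζ).subtype hincl hD harch (ζ₁_prim T) hγ (isAdjS T) i

/-- the `i`-th embedding of the cover into the completion of `FK N` at `R.Rw`. -/
def embT (i : ZMod p) : T.Fp →ₐ[Kb] LR R :=
  Bridge.embK R (F₁ N A ζ).subtype hincl hD harch (ζ₁_prim T) hγ (isAdjS T) i

theorem embT_algebraMap (i : ZMod p) (x : FK N) :
    embT T R hincl hD harch hγ i (algebraMap (FK N) T.Fp x) = algebraMap (FK N) (LR R) x :=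
  Bridge.embK_algebraMap R (F₁ N A ζ).subtype hincl hD harch (ζ₁_prim T) hγ (isAdjS T) i x

theorem sheetT_eq (i : ZMod p) :
    sheetT T R hincl hD harch hγ i =
      sheet R (embT T R hincl hD harch hγ i) (embT_algebraMap T R hincl hD harch hγ i) := rfl

theorem redExt_sheetT (i : ZMod p) : RedExt R (sheetT T R hincl hD harch hγ i) :=
  Bridge.redExt_sheetK R _ hincl hD harch (ζ₁_prim T) hγ (isAdjS T) i

theorem unram_sheetT (hun : Unram R) (i : ZMod p) : Unram (sheetT T R hincl hD harch hγ i) :=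
  Bridge.unram_sheetK R _ hincl hD harch (ζ₁_prim T) hγ (isAdjS T) hun i

/-- units of the `i`-th sheet among the nonzero `K'`-rational functions. -/
theorem isU_sheetT_iff' (i : ZMod p) {y : E' T} (hy : y ≠ 0) :
    IsU (sheetT T R hincl hD harch hγ i) ((E' T).subtype y) ↔
      Pack.wv hD (isAdj' T) (ζ₁_prim T) hγ i y = 0 :=
  Bridge.isU_sheetK_iff_wv R (F₁ N A ζ).subtype hincl hD harch (isAdj' T) (ζ₁_prim T) hγ (isAdjS T)
    (E' T).subtype (hincl' T) (hroot T) i hy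

/-- **units of the `i`-th sheet among the `K'`-rational units = order `0` at `w_i`.** -/
theorem isU_sheetT_iff (i : ZMod p) (y : fixedUnits (tameGroup A ζ) T.Fp) :
    IsU (sheetT T R hincl hD harch hγ i) ((y : T.Fpˣ) : T.Fp) ↔
      Pack.wv hD (isAdj' T) (ζ₁_prim T) hγ i (toE' T y) = 0 :=
  isU_sheetT_iff' T R hincl hD harch hγ i (toE'_ne_zero T y)

/-- integrality on the `i`-th sheet. -/
theorem mem_sheetT_Rw_iff' (i : ZMod p) {y : E' T} (hy : y ≠ 0) :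
    (E' T).subtype y ∈ (sheetT T R hincl hD harch hγ i).Rw ↔
      0 ≤ Pack.wv hD (isAdj' T) (ζ₁_prim T) hγ i y :=
  Bridge.mem_sheetK_Rw_iff_wv R (F₁ N A ζ).subtype hincl hD harch (isAdj' T) (ζ₁_prim T) hγ
    (isAdjS T) (E' T).subtype (hincl' T) (hroot T) i hy

/-- **tame equivariance of the sheet embeddings** on the `K'`-rational functions. -/
theorem embT_tame (τ : F₁ N A ζ ≃+* F₁ N A ζ) (hτ : ∀ a, v (τ a) = v a)
    (σ : FK N ≃+* FK N) (hσ : ∀ x : FK N, R.Rw.valuation (σ x) = R.Rw.valuation x)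
    (hcomm : ∀ a : F₁ N A ζ, (F₁ N A ζ).subtype (τ a) = σ ((F₁ N A ζ).subtype a))
    {x : E' T ≃+* E' T} (hx : IsOver (x : E' T →+* E' T) (τ : F₁ N A ζ →+* F₁ N A ζ))
    (hxδ : Commute (x : E' T →+* E' T) (deck (isAdj' T) (ζ₁_prim T)))
    (hg₀ : g₁ T ≠ 0) {d : ℕ} (hd : Nat.Coprime d p)
    (hxd : (x : E' T →+* E' T) ^ d = 1) (hτd : τ ^ d = 1) (i : ZMod p) (y : E' T) :
    embT T R hincl hD harch hγ i ((E' T).subtype (x y)) =
      tauL R σ hσ (embT T R hincl hD harch hγ i ((E' T).subtype y)) :=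
  BridgeTame.embK_incl_tame R (F₁ N A ζ).subtype hincl hD harch (isAdj' T) (ζ₁_prim T) hγ
    (isAdjS T) (E' T).subtype (hincl' T) (hroot T) τ hτ σ hσ hcomm hx hxδ hg₀ hd hxd
    hτd i y

include hincl in
/-- **`harch` from `Unram R`** (`A ∣ p`, `ϖ₀ = 1 − ζ`, `R.A = A`). -/
theorem harch_of_unram (hA : (p : Kb) ∈ A.nonunits) (hRA : R.A = A) (hun : Unram R) :
    ∀ γ : ValuationSubring.ValueGroup R.Rw, γ ≠ 0 → ∃ n : ℕ, v (ϖ₁ T) ^ n < γ := by
  have hnu : (1 - ζ : Kb) ∈ A.nonunits :=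
    Fermat.Agent.GL.Local.InertiaField.one_sub_zeta_mem_nonunits A hpF.out hA T.prim
  have h0 : (1 - ζ : Kb) ≠ 0 :=
    Fermat.Agent.GL.Local.InertiaField.one_sub_zeta_ne_zero hpF.out T.prim
  have hlt : A.valuation (1 - ζ) < 1 := (A.mem_nonunits_iff).1 hnu
  have hmem : (1 - ζ : Kb) ∈ R.A := by
    rw [hRA, ← A.valuation_le_one_iff]
    exact hlt.le
  have hinv : (1 - ζ : Kb)⁻¹ ∉ R.A := by
    rw [hRA, ← A.valuation_le_one_iff, map_inv₀, not_le]
    exact (one_lt_inv₀ (zero_lt_iff.2 ((_root_.map_ne_zero _).2 h0))).2 hlt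
  have hp0 : (p : Kb) ≠ 0 := Nat.cast_ne_zero.mpr hpF.out.ne_zero
  have hϖ : (1 - ζ : Kb) ^ (p - 1) * ((p : Kb))⁻¹ ∈ A := by
    rw [← A.valuation_le_one_iff, map_mul, map_pow, map_inv₀,
      Fermat.Agent.GL.Local.InertiaField.valuation_one_sub_zeta_pow A hpF.out T.prim,
      mul_inv_cancel₀ ((_root_.map_ne_zero _).2 hp0)]
  refine Harch.harch_of_unram_comap R hun hmem hinv (fun c hc => ?_) (F₁ N A ζ).subtype hincl
    (ϖ := ϖ₁ T) (ϖ₀ := 1 - ζ) rfl
  rw [hRA]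
  exact Harch.exists_unif_pow_mul_inv_mem_Qbar A hpF.out hA hϖ hc

end General

/-! ### the first Gauss valuation -/

section First

variable (hA : (p : Kb) ∈ A.nonunits)
  (hD₁ : IsDisc (valF₁ T (galVal1 N A)) (ϖ₁ T))
  {γ₁ : Pack.Lc hD₁} (hγ₁ : γ₁ ^ p = Pack.jc hD₁ (g₁ T))

theorem hincl₁ (a : F₁ N A ζ) :
    (redDataBar N A).Rw.valuation ((F₁ N A ζ).subtype a) = valF₁ T (galVal1 N A) a := rfl

include hA in
/-- `harch` at the first Gauss valuation. -/
theorem harch₁ : ∀ γ : ValuationSubring.ValueGroup (redDataBar N A).Rw, γ ≠ 0 →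
    ∃ n : ℕ, valF₁ T (galVal1 N A) (ϖ₁ T) ^ n < γ :=
  harch_of_unram T (redDataBar N A) (hincl₁ T) hA rfl
    (Fermat.Agent.GS.F.unram_redDataBar N A)

/-- the `i`-th sheet above the first Gauss valuation. -/
def sheet₁ (i : ZMod p) : RedData Kb T.Fp (IsLocalRing.ResidueField A) (FresBar N A) :=
  sheetT T (redDataBar N A) (hincl₁ T) hD₁ (harch₁ T hA) hγ₁ i

theorem redExt_sheet₁ (i : ZMod p) : RedExt (redDataBar N A) (sheet₁ T hA hD₁ hγ₁ i) :=
  redExt_sheetT T (redDataBar N A) (hincl₁ T) hD₁ (harch₁ T hA) hγ₁ i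

theorem unram_sheet₁ (i : ZMod p) : Unram (sheet₁ T hA hD₁ hγ₁ i) :=
  unram_sheetT T (redDataBar N A) (hincl₁ T) hD₁ (harch₁ T hA) hγ₁
    (Fermat.Agent.GS.F.unram_redDataBar N A) i

/-- **`hu1`**: units of the `i`-th sheet above the first Gauss valuation = `wOf … i y = 0`. -/
theorem isU_sheet₁_iff (i : ZMod p) (y : fixedUnits (tameGroup A ζ) T.Fp) :
    IsU (sheet₁ T hA hD₁ hγ₁ i) ((y : T.Fpˣ) : T.Fp) ↔ wOf T hD₁ hγ₁ i y = 0 :=
  isU_sheetT_iff T (redDataBar N A) (hincl₁ T) hD₁ (harch₁ T hA) hγ₁ i y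

end First

/-! ### the second Gauss valuation -/

section Second

variable {q : ℕ} (h : ExactDvd q N) (hA : (p : Kb) ∈ A.nonunits)
  (hD₂ : IsDisc (valF₁ T (galVal2 N A h)) (ϖ₁ T))
  {γ₂ : Pack.Lc hD₂} (hγ₂ : γ₂ ^ p = Pack.jc hD₂ (g₁ T))

theorem hincl₂ (a : F₁ N A ζ) :
    (redData2 N A h).Rw.valuation ((F₁ N A ζ).subtype a) = valF₁ T (galVal2 N A h) a := rfl

include hA in
/-- `harch` at the second Gauss valuation. -/
theorem harch₂ : ∀ γ : ValuationSubring.ValueGroup (redData2 N A h).Rw, γ ≠ 0 →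
    ∃ n : ℕ, valF₁ T (galVal2 N A h) (ϖ₁ T) ^ n < γ :=
  harch_of_unram T (redData2 N A h) (hincl₂ T h) hA rfl
    (Fermat.Agent.GS.F.unram_redData2 N A h)

/-- the `i`-th sheet above the second Gauss valuation. -/
def sheet₂ (i : ZMod p) : RedData Kb T.Fp (IsLocalRing.ResidueField A) (FresBar N A) :=
  sheetT T (redData2 N A h) (hincl₂ T h) hD₂ (harch₂ T h hA) hγ₂ i

theorem redExt_sheet₂ (i : ZMod p) : RedExt (redData2 N A h) (sheet₂ T h hA hD₂ hγ₂ i) :=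
  redExt_sheetT T (redData2 N A h) (hincl₂ T h) hD₂ (harch₂ T h hA) hγ₂ i

theorem unram_sheet₂ (i : ZMod p) : Unram (sheet₂ T h hA hD₂ hγ₂ i) :=
  unram_sheetT T (redData2 N A h) (hincl₂ T h) hD₂ (harch₂ T h hA) hγ₂
    (Fermat.Agent.GS.F.unram_redData2 N A h) i

/-- **`hu2`**: units of the `i`-th sheet above the second Gauss valuation = `wOf … i y = 0`. -/
theorem isU_sheet₂_iff (i : ZMod p) (y : fixedUnits (tameGroup A ζ) T.Fp) :
    IsU (sheet₂ T h hA hD₂ hγ₂ i) ((y : T.Fpˣ) : T.Fp) ↔ wOf T hD₂ hγ₂ i y = 0 :=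
  isU_sheetT_iff T (redData2 N A h) (hincl₂ T h) hD₂ (harch₂ T h hA) hγ₂ i y

end Second

end Fermat.Agent.GF.KCover.Compl.SheetsMod
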