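/-
GATE-F (S40/S44) / GF-KCOVER-INST, leaf (L-c) (helper42): **the bridge is equivariant** —
`beta ∘ tauC = tauL ∘ beta` — and the pointwise binder `ha` of `NodeOrdTau.inn_of_tauL` on the
`K'`-rational functions of the cover.

`beta : Lc h →+* Compl V` (helper19 `Compl/Bridge`), `tauC h τ hτ` the extension of a `v`-preserving
automorphism `τ` of `E₁ = F_{K'}` to `Lc h` (helper3 `Field/Pack`), `ext V σ hσ` / `tauL R σ hσ` the
extension of a `V`-preserving automorphism `σ` of the big field `F` to `Compl V`.  If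
`incl ∘ τ = σ ∘ incl` then both `beta ∘ tauC` and `ext σ ∘ beta` are continuous and agree on the dense
image of `E₁`:

* `Gen.betaGen_tauC`, `beta_tauC`, `beta_tauL`;
* `embK_tame` : `embK i (incl' (x y)) = tauL R σ hσ (embK i (incl' y))` for `y : E'` and the tame
  generator `x` (helper3 `Pack.emb_tame` through the bridge);
* `inn_sheetK` : **the binder `inn` of `NL0Plug.nl_on_subgroup`** for `R₁ := sheetK … i`, for a map
  `a : Us →* Us` which is `x` on `K'`-rational representatives.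
-/
import Fermat.Agent.GF.KCover.Compl.Bridge
import Fermat.Agent.GF.KCover.Compl.NodeOrdTau

set_option autoImplicit false
set_option linter.unusedSectionVars false
set_option linter.dupNamespace false

noncomputable section

open Topology Filter UniformSpace Polynomial AlgebraicCurve

namespace Fermat.Agent.GF.KCover.Compl.BridgeTau

open Fermat.Agent.GF.KCover.Field Fermat.Agent.GF.KCover.Field.Disc
  Fermat.Agent.GF.KCover.Field.Pack Fermat.Agent.GF.KCover.Compl
  Fermat.Agent.GF.KCover.Compl.Bridge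

/-! ### the generic statement (`[Valued F Γ₀]`) -/

namespace Gen

open Fermat.Agent.GF.KCover.Compl.Bridge.Gen

variable {E₁ : Type*} [Field E₁] {Γ₀ : Type*} [LinearOrderedCommGroupWithZero Γ₀]
variable {v : Valuation E₁ Γ₀} {ϖ : E₁} (h : IsDisc v ϖ)
variable {F : Type*} [Field F] [hv : Valued F Γ₀]
variable (incl : E₁ →+* F) (hincl : ∀ a, hv.v (incl a) = v a)
variable (harch : ∀ γ : Γ₀, γ ≠ 0 → ∃ n : ℕ, v ϖ ^ n < γ)
variable (τ : E₁ ≃+* E₁) (hτ : ∀ a, v (τ a) = v a)
variable (σ : F ≃+* F) (hσ : ∀ x, hv.v (σ x) = hv.v x)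

theorem continuous_tauC : Continuous (tauC h τ hτ) :=
  Fermat.Agent.GF.KCover.Field.Compl.continuous_extEquiv _ _

theorem tauC_coe (a : WithAbs (absD h)) :
    tauC h τ hτ (a : Lc h) = ((WithAbs.toAbs (absD h) (τ a.ofAbs) : WithAbs (absD h)) : Lc h) := by
  have := tauC_jc h τ hτ a.ofAbs
  rw [jc_apply, jc_apply] at this
  exact this

/-- **the bridge is equivariant** -/
theorem betaGen_tauC (hcomm : ∀ a : E₁, incl (τ a) = σ (incl a)) (z : Lc h) :
    betaGen h incl hincl harch (tauC h τ hτ z) =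
      Fermat.Agent.GF.KCover.Compl.Gen.extEquiv σ hσ (betaGen h incl hincl harch z) := by
  have hf : Continuous fun z : Lc h => betaGen h incl hincl harch (tauC h τ hτ z) :=
    (continuous_betaGen h incl hincl harch).comp (continuous_tauC h τ hτ)
  have hg : Continuous fun z : Lc h =>
      Fermat.Agent.GF.KCover.Compl.Gen.extEquiv σ hσ (betaGen h incl hincl harch z) :=
    (Fermat.Agent.GF.KCover.Compl.Gen.continuous_extHom (σ : F →+* F) hσ).comp
      (continuous_betaGen h incl hincl harch)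
  refine congrFun (Completion.ext hf hg fun a => ?_) z
  show betaGen h incl hincl harch (tauC h τ hτ (a : Lc h)) =
    Fermat.Agent.GF.KCover.Compl.Gen.extEquiv σ hσ (betaGen h incl hincl harch (a : Lc h))
  rw [tauC_coe, betaGen_coe, betaGen_coe, Fermat.Agent.GF.KCover.Compl.Gen.extEquiv_coe]
  show ((incl (τ a.ofAbs) : F) : Completion F) = _
  rw [hcomm]

end Gen

/-! ### the explicit-valuation form -/

section Main

variable {E₁ : Type*} [Field E₁] {Γ₀ : Type*} [LinearOrderedCommGroupWithZero Γ₀]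
variable {v : Valuation E₁ Γ₀} {ϖ : E₁} (h : IsDisc v ϖ)
variable {F : Type*} [Field F] (V : Valuation F Γ₀)
variable (incl : E₁ →+* F) (hincl : ∀ a, V (incl a) = v a)
variable (harch : ∀ γ : Γ₀, γ ≠ 0 → ∃ n : ℕ, v ϖ ^ n < γ)
variable (τ : E₁ ≃+* E₁) (hτ : ∀ a, v (τ a) = v a)
variable (σ : F ≃+* F) (hσ : ∀ x, V (σ x) = V x)

theorem beta_tauC (hcomm : ∀ a : E₁, incl (τ a) = σ (incl a)) (z : Lc h) :
    beta h V incl hincl harch (tauC h τ hτ z) = ext V σ hσ (beta h V incl hincl harch z) := by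
  let _ := Valued.mk' V
  exact Gen.betaGen_tauC h incl hincl harch τ hτ σ hσ hcomm z

end Main

/-! ### the sheets -/

section Sheet

open Fermat.Agent.GJ.J1 Fermat.Agent.S24 Fermat.Agent.GF.Trop
  Fermat.Agent.GF.KCover.Compl.RedCompl Fermat.Agent.GF.KCover.Compl.RedAut
  Fermat.Agent.GF.KCover.Compl.NodeOrdTau Fermat.Agent.GF.KCover.Node.OrdRedExt

variable {K F k Ft : Type*} [Field K] [Field F] [Algebra K F] [Field k] [Field Ft] [Algebra k Ft]
variable (R : RedData K F k Ft)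
variable {F' : Type*} [Field F'] [Algebra K F'] [Algebra F F'] [IsScalarTower K F F']
variable {E₁ : Type*} [Field E₁] {ϖ : E₁} {v : Valuation E₁ (ValuationSubring.ValueGroup R.Rw)}
variable (incl : E₁ →+* F) (hincl : ∀ a : E₁, R.Rw.valuation (incl a) = v a)
variable (h : IsDisc v ϖ)
variable (harch : ∀ γ : ValuationSubring.ValueGroup R.Rw, γ ≠ 0 → ∃ n : ℕ, v ϖ ^ n < γ)
variable {E' : Type*} [Field E'] [Algebra E₁ E'] {p : ℕ} [NeZero p] {g₀ : E₁}
  (H₁ : IsAdjoinRoot E' (X ^ p - C g₀ : E₁[X])) {ζ : E₁} (hζ : IsPrimitiveRoot ζ p)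
  {γ : Lc h} (hγ : γ ^ p = jc h g₀)
  (H : IsAdjoinRoot F' (X ^ p - C (incl g₀) : F[X]))
  (incl' : E' →+* F')
  (hincl' : ∀ a : E₁, incl' (algebraMap E₁ E' a) = algebraMap F F' (incl a))
  (hroot : incl' H₁.root = H.root)
variable (τ : E₁ ≃+* E₁) (hτ : ∀ a, v (τ a) = v a)
variable (σ : F ≃+* F) (hσ : ∀ x : F, R.Rw.valuation (σ x) = R.Rw.valuation x)

theorem beta_tauL (hcomm : ∀ a : E₁, incl (τ a) = σ (incl a)) (z : Lc h) :
    beta h R.Rw.valuation incl hincl harch (tauC h τ hτ z) =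
      tauL R σ hσ (beta h R.Rw.valuation incl hincl harch z) :=
  beta_tauC h R.Rw.valuation incl hincl harch τ hτ σ hσ hcomm z

variable {x : E' ≃+* E'}
  (hx : IsOver (x : E' →+* E') (τ : E₁ →+* E₁))
  (hxδ : Commute (x : E' →+* E') (deck H₁ hζ))

include hincl' hroot hx hxδ hτ in
/-- **the tame generator on the `K'`-rational functions is `tauL` on every sheet** -/
theorem embK_tame (hcomm : ∀ a : E₁, incl (τ a) = σ (incl a)) (hg₀ : g₀ ≠ 0) {d : ℕ}
    (hd : Nat.Coprime d p) (hxd : (x : E' →+* E') ^ d = 1) (hτd : τ ^ d = 1) (i : ZMod p)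
    (y : E') :
    embK R incl hincl h harch hζ hγ H i (incl' (x y)) =
      tauL R σ hσ (embK R incl hincl h harch hζ hγ H i (incl' y)) := by
  show embV h R.Rw.valuation incl hincl harch hζ hγ H i (incl' (x y)) =
    tauL R σ hσ (embV h R.Rw.valuation incl hincl harch hζ hγ H i (incl' y))
  rw [emb_incl h R.Rw.valuation incl hincl harch H₁ hζ hγ H incl' hincl' hroot,
    emb_incl h R.Rw.valuation incl hincl harch H₁ hζ hγ H incl' hincl' hroot,
    emb_tame h H₁ hζ hγ τ hτ hx hxδ hg₀ hd hxd hτd i y,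
    beta_tauL R incl hincl h harch τ hτ σ hσ hcomm]

include hincl' hroot hx hxδ hτ in
/-- **the binder `inn` of `NL0Plug.nl_on_subgroup`** on the sheet `sheetK … i`. -/
theorem inn_sheetK (hun : Unram R)
    (hσK : ∀ c : K, ∃ c' : K, σ (algebraMap K F c) = algebraMap K F c')
    (hres : ∀ (a : F) (ha : a ∈ R.Rw), R.red ⟨σ a, map_mem_Rw R σ hσ ha⟩ = R.red ⟨a, ha⟩)
    (hcomm : ∀ a : E₁, incl (τ a) = σ (incl a)) (hg₀ : g₀ ≠ 0) {d : ℕ}
    (hd : Nat.Coprime d p) (hxd : (x : E' →+* E') ^ d = 1) (hτd : τ ^ d = 1) (i : ZMod p)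
    (Pl : Place k Ft) (G : Subgroup F'ˣ) (Us : Subgroup G) (a : Us →* Us)
    (hrep : ∀ u : Us, ∃ y : E', ((((u : Us) : G) : F'ˣ) : F') = incl' y ∧
      ((((a u : Us) : G) : F'ˣ) : F') = incl' (x y)) (u : Us) :
    nodeOrd (sheetK R incl hincl h harch hζ hγ H i) (unram_sheetK R incl hincl h harch hζ hγ H hun i)
        Pl G ((a u : Us) : G) =
      nodeOrd (sheetK R incl hincl h harch hζ hγ H i)
        (unram_sheetK R incl hincl h harch hζ hγ H hun i) Pl G ((u : Us) : G) := by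
  obtain ⟨y, hy, hay⟩ := hrep u
  refine nodeOrd_sheet_eq_of_tauL R hun σ hσ hσK hres _ _ Pl G _ _ ?_
  rw [hy, hay]
  exact embK_tame R incl hincl h harch H₁ hζ hγ H incl' hincl' hroot τ hτ σ hσ hx hxδ hcomm hg₀
    hd hxd hτd i y

end Sheet

end Fermat.Agent.GF.KCover.Compl.BridgeTau

end
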