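/-
GATE-F (S44) / node GF-KCOVER-INST-COMPL-MAP (helper85): **functoriality of helper19's completion
`Compl v` in the pair `(F, v)` for a field EMBEDDING** — (Q2) of helper47 (board 6448): the map
`L_i^N → L_i^{4N}` for `F_N ⊆ F_{4N}` with compatible Gauss valuations, so that the SAME `p`-th root
`γ_i` serves at both levels (`emb^{4N}_{i,k} ∘ ι = mapEmb ∘ emb^N_{i,k}`).

`ι : F →+* F'`, `v : Valuation F Γ₀`, `v' : Valuation F' Γ₀` (same `Γ₀`) with `v' ∘ ι = v` and the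
cofinality hypothesis `hcof : ∀ y' ≠ 0, ∃ c ≠ 0, v c ≤ v' y'` (automatic when `v' p ^ n → 0`:
`hcof_of_arch`).

* `Gen.continuous_of_val_eq'`, `Gen.mapHom`, `Gen.mapHom_coe`, `Gen.val_mapHom`, `Gen.mapHom_comp_extHom`
  (instance form, Mathlib + `Compl/Valued`);
* `mapEmb v v' ι hι hcof : Compl v →+* Compl v'`, `mapEmb_j`, `val_mapEmb`, `mapEmb_injective`;
* `mapEmb_ext` : `mapEmb (ext v σ hσ z) = ext v' σ' hσ' (mapEmb z)` when `ι ∘ σ = σ' ∘ ι`;
* `mapEmb_root` : a `p`-th root `γ` of `j v z` in `Compl v` maps to a `p`-th root of `j v' (ι z)`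
  with the same distance to `1`.
-/
import Fermat.Agent.GF.KCover.Compl.Main

set_option autoImplicit false
set_option linter.dupNamespace false

noncomputable section

open Topology Filter UniformSpace

namespace Fermat.Agent.GF.KCover.Compl

namespace Gen

variable {F F' : Type*} [Field F] [Field F'] {Γ₀ : Type*} [LinearOrderedCommGroupWithZero Γ₀]
  [hv : Valued F Γ₀] [hv' : Valued F' Γ₀]

/-- a valuation-preserving embedding with cofinal values is continuous -/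
theorem continuous_of_val_eq' (ι : F →+* F') (hι : ∀ x, hv'.v (ι x) = hv.v x)
    (hcof : ∀ y' : F', y' ≠ 0 → ∃ c : F, c ≠ 0 ∧ hv.v c ≤ hv'.v y') : Continuous ι := by
  refine continuous_of_continuousAt_zero ι ?_
  rw [ContinuousAt, map_zero]
  rw [(Valued.hasBasis_nhds_zero F Γ₀).tendsto_iff (Valued.hasBasis_nhds_zero F' Γ₀)]
  intro γ' _
  obtain ⟨r, s, hr, hs, hrs⟩ := hv'.v.exists_div_eq_of_unit γ'
  have hr0 : r ≠ 0 := fun h => by rw [h, map_zero] at hr; exact lt_irrefl _ hr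
  have hs0 : s ≠ 0 := fun h => by rw [h, map_zero] at hs; exact lt_irrefl _ hs
  obtain ⟨c, hc0, hc⟩ := hcof (r / s) (div_ne_zero hr0 hs0)
  have hc' : hv.v.restrict c ≠ 0 := by
    rw [Ne, Valuation.restrict_eq_zero_iff, Valuation.zero_iff]
    exact hc0
  refine ⟨Units.mk0 _ hc', trivial, fun x hx => ?_⟩
  rw [Set.mem_ofPred_eq, Units.val_mk0, Valuation.restrict_lt_iff] at hx
  rw [Set.mem_ofPred_eq, ← hrs, ← map_div₀, Valuation.restrict_lt_iff, hι]
  exact lt_of_lt_of_le hx hc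

/-- the map induced on the completions by a valuation-preserving embedding -/
def mapHom (ι : F →+* F') (hι : ∀ x, hv'.v (ι x) = hv.v x)
    (hcof : ∀ y' : F', y' ≠ 0 → ∃ c : F, c ≠ 0 ∧ hv.v c ≤ hv'.v y') :
    Completion F →+* Completion F' :=
  Completion.mapRingHom ι (continuous_of_val_eq' ι hι hcof)

theorem mapHom_coe (ι : F →+* F') (hι : ∀ x, hv'.v (ι x) = hv.v x)
    (hcof : ∀ y' : F', y' ≠ 0 → ∃ c : F, c ≠ 0 ∧ hv.v c ≤ hv'.v y') (x : F) :
    mapHom ι hι hcof (x : Completion F) = ((ι x : F') : Completion F') :=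
  Completion.mapRingHom_coe (continuous_of_val_eq' ι hι hcof) x

theorem continuous_mapHom (ι : F →+* F') (hι : ∀ x, hv'.v (ι x) = hv.v x)
    (hcof : ∀ y' : F', y' ≠ 0 → ∃ c : F, c ≠ 0 ∧ hv.v c ≤ hv'.v y') :
    Continuous (mapHom ι hι hcof) := by
  show Continuous (Completion.map ι)
  exact Completion.continuous_map

/-- **the induced map preserves the valuation** -/
theorem val_mapHom (ι : F →+* F') (hι : ∀ x, hv'.v (ι x) = hv.v x)
    (hcof : ∀ y' : F', y' ≠ 0 → ∃ c : F, c ≠ 0 ∧ hv.v c ≤ hv'.v y') (z : Completion F) :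
    Valued.v (mapHom ι hι hcof z) = Valued.v z := by
  rcases eq_or_ne z 0 with rfl | hz
  · rw [map_zero, map_zero, map_zero]
  have hιz : mapHom ι hι hcof z ≠ 0 :=
    (map_ne_zero_iff _ (mapHom ι hι hcof).injective).2 hz
  have h1 : {y : Completion F | Valued.v y = Valued.v z} ∈ 𝓝 z :=
    Valued.locally_const ((Valuation.ne_zero_iff _).2 hz)
  have h2 : {y : Completion F | Valued.v (mapHom ι hι hcof y) =
      Valued.v (mapHom ι hι hcof z)} ∈ 𝓝 z :=
    (continuous_mapHom ι hι hcof).continuousAt.preimage_mem_nhds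
      (Valued.locally_const ((Valuation.ne_zero_iff _).2 hιz))
  obtain ⟨b, hb⟩ := exists_approx_mem z (Filter.inter_mem h1 h2)
  obtain ⟨hb1, hb2⟩ := hb
  rw [Set.mem_ofPred_eq] at hb1 hb2
  rw [← hb2, ← hb1, mapHom_coe, Valued.valuedCompletion_apply, Valued.valuedCompletion_apply, hι]

/-- compatibility with the extension of valuation-preserving endomorphisms -/
theorem mapHom_comp_extHom (ι : F →+* F') (hι : ∀ x, hv'.v (ι x) = hv.v x)
    (hcof : ∀ y' : F', y' ≠ 0 → ∃ c : F, c ≠ 0 ∧ hv.v c ≤ hv'.v y')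
    (σ : F →+* F) (hσ : ∀ x, hv.v (σ x) = hv.v x)
    (σ' : F' →+* F') (hσ' : ∀ x, hv'.v (σ' x) = hv'.v x)
    (hcomm : ∀ x, ι (σ x) = σ' (ι x)) :
    (mapHom ι hι hcof).comp (extHom σ hσ) = (extHom σ' hσ').comp (mapHom ι hι hcof) := by
  unfold mapHom extHom
  rw [Completion.mapRingHom_comp, Completion.mapRingHom_comp]
  congr 1
  exact RingHom.ext hcomm

end Gen

variable {F F' : Type*} [Field F] [Field F'] {Γ₀ : Type*} [LinearOrderedCommGroupWithZero Γ₀]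
  (v : Valuation F Γ₀) (v' : Valuation F' Γ₀)

/-- cofinality from `v p ^ n → 0` (the `harch` of `exists_root`) -/
theorem hcof_of_arch {c : F} (hc0 : c ≠ 0)
    (harch : ∀ γ : Γ₀, γ ≠ 0 → ∃ n : ℕ, v c ^ n < γ) :
    ∀ y' : F', y' ≠ 0 → ∃ c' : F, c' ≠ 0 ∧ v c' ≤ v' y' := by
  intro y' hy'
  obtain ⟨n, hn⟩ := harch (v' y') ((Valuation.ne_zero_iff _).2 hy')
  exact ⟨c ^ n, pow_ne_zero n hc0, by rw [map_pow]; exact hn.le⟩

/-- **the map `Compl v → Compl v'` induced by a valuation-preserving embedding** -/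
def mapEmb (ι : F →+* F') (hι : ∀ x, v' (ι x) = v x)
    (hcof : ∀ y' : F', y' ≠ 0 → ∃ c : F, c ≠ 0 ∧ v c ≤ v' y') : Compl v →+* Compl v' :=
  letI := Valued.mk' v
  letI := Valued.mk' v'
  (Gen.mapHom ι hι hcof : UniformSpace.Completion F →+* UniformSpace.Completion F')

theorem mapEmb_j (ι : F →+* F') (hι : ∀ x, v' (ι x) = v x)
    (hcof : ∀ y' : F', y' ≠ 0 → ∃ c : F, c ≠ 0 ∧ v c ≤ v' y') (x : F) :
    mapEmb v v' ι hι hcof (j v x) = j v' (ι x) := by
  let _ := Valued.mk' v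
  let _ := Valued.mk' v'
  exact Gen.mapHom_coe ι hι hcof x

theorem val_mapEmb (ι : F →+* F') (hι : ∀ x, v' (ι x) = v x)
    (hcof : ∀ y' : F', y' ≠ 0 → ∃ c : F, c ≠ 0 ∧ v c ≤ v' y') (z : Compl v) :
    val v' (mapEmb v v' ι hι hcof z) = val v z := by
  let _ := Valued.mk' v
  let _ := Valued.mk' v'
  exact Gen.val_mapHom ι hι hcof z

theorem mapEmb_injective (ι : F →+* F') (hι : ∀ x, v' (ι x) = v x)
    (hcof : ∀ y' : F', y' ≠ 0 → ∃ c : F, c ≠ 0 ∧ v c ≤ v' y') :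
    Function.Injective (mapEmb v v' ι hι hcof) :=
  (mapEmb v v' ι hι hcof).injective

/-- **compatibility with `ext`**: `ι ∘ σ = σ' ∘ ι` ⟹ `mapEmb ∘ σ̂ = σ̂' ∘ mapEmb` -/
theorem mapEmb_ext (ι : F →+* F') (hι : ∀ x, v' (ι x) = v x)
    (hcof : ∀ y' : F', y' ≠ 0 → ∃ c : F, c ≠ 0 ∧ v c ≤ v' y')
    (σ : F ≃+* F) (hσ : ∀ x, v (σ x) = v x) (σ' : F' ≃+* F') (hσ' : ∀ x, v' (σ' x) = v' x)
    (hcomm : ∀ x, ι (σ x) = σ' (ι x)) (z : Compl v) :
    mapEmb v v' ι hι hcof (ext v σ hσ z) = ext v' σ' hσ' (mapEmb v v' ι hι hcof z) := by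
  let _ := Valued.mk' v
  let _ := Valued.mk' v'
  have h := Gen.mapHom_comp_extHom ι hι hcof (σ : F →+* F) hσ (σ' : F' →+* F') hσ' hcomm
  exact congrArg (fun φ : UniformSpace.Completion F →+* UniformSpace.Completion F' => φ z) h

/-- **the same `p`-th root at both levels** -/
theorem mapEmb_root (ι : F →+* F') (hι : ∀ x, v' (ι x) = v x)
    (hcof : ∀ y' : F', y' ≠ 0 → ∃ c : F, c ≠ 0 ∧ v c ≤ v' y') {p : ℕ} {z : F} {γ : Compl v}
    (hγ : γ ^ p = j v z) :
    (mapEmb v v' ι hι hcof γ) ^ p = j v' (ι z) ∧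
      val v' (mapEmb v v' ι hι hcof γ - 1) = val v (γ - 1) := by
  refine ⟨by rw [← map_pow, hγ, mapEmb_j], ?_⟩
  rw [← map_one (mapEmb v v' ι hι hcof), ← map_sub, val_mapEmb]

end Fermat.Agent.GF.KCover.Compl
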