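/-
GATE-F (S44) / node GF-KCOVER-INST-COMPL-MAP2 (helper85): **`MapEmb` for DIFFERENT value groups**
(helper47, board 6668 (AUX-C)): the Gauss valuations `R.Rw.valuation`, `R'.Rw.valuation` of two levels
live in different `ValueGroup` types, so compatibility is an EQUIVALENCE of valuations.

`ι : F →+* F'`, `v : Valuation F Γ₀`, `v' : Valuation F' Γ₀'`, `hι : (v'.comap ι).IsEquiv v`,
`hcof : ∀ y' ≠ 0, ∃ c ≠ 0, v' (ι c) ≤ v' y'`.

* `GenE.continuous_of_isEquiv`, `GenE.mapHomE`, `GenE.mapHomE_coe`, `GenE.exists_val_mapHomE`;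
* `mapEmbE v v' ι hι hcof : Compl v →+* Compl v'`, `mapEmbE_j`, `mapEmbE_injective`;
* `exists_val_mapEmbE` : `∀ z, ∃ r : F, val v z = v r ∧ val v' (mapEmbE z) = v' (ι r)`;
* `isEquiv_mapEmbE` : `((val v').comap mapEmbE).IsEquiv (val v)`; `val_mapEmbE_le_one_iff`,
  `val_mapEmbE_lt_one_iff`, `val_mapEmbE_eq_one_iff` (unit ball ↦ unit ball, maximal ideal ↦ maximal
  ideal: the residue fields inject);
* `mapEmbE_ext` (compatibility with `ext`), `mapEmbE_root` (the same `p`-th root at both levels).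
-/
import Fermat.Agent.GF.KCover.Compl.Main

set_option autoImplicit false
set_option linter.dupNamespace false

noncomputable section

open Topology Filter UniformSpace

namespace Fermat.Agent.GF.KCover.Compl

namespace GenE

variable {F F' : Type*} [Field F] [Field F'] {Γ₀ Γ₀' : Type*}
  [LinearOrderedCommGroupWithZero Γ₀] [LinearOrderedCommGroupWithZero Γ₀']
  [hv : Valued F Γ₀] [hv' : Valued F' Γ₀']

/-- strict inequalities transfer along an equivalence of valuations -/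
theorem lt_of_isEquiv {ι : F →+* F'} (hι : (hv'.v.comap ι).IsEquiv hv.v) {x y : F}
    (h : hv.v x < hv.v y) : hv'.v (ι x) < hv'.v (ι y) := by
  have := (Valuation.IsEquiv.lt_iff_lt hι (x := x) (y := y)).2 h
  simpa [Valuation.comap_apply] using this

/-- an embedding inducing an equivalent valuation, with cofinal values, is continuous -/
theorem continuous_of_isEquiv (ι : F →+* F') (hι : (hv'.v.comap ι).IsEquiv hv.v)
    (hcof : ∀ y' : F', y' ≠ 0 → ∃ c : F, c ≠ 0 ∧ hv'.v (ι c) ≤ hv'.v y') : Continuous ι := by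
  refine continuous_of_continuousAt_zero ι ?_
  rw [ContinuousAt, map_zero]
  rw [(Valued.hasBasis_nhds_zero F Γ₀).tendsto_iff (Valued.hasBasis_nhds_zero F' Γ₀')]
  intro γ' _
  obtain ⟨r, s, hr, hs, hrs⟩ := hv'.v.exists_div_eq_of_unit γ'
  have hr0 : r ≠ 0 := fun h => by rw [h, map_zero] at hr; exact lt_irrefl _ hr
  have hs0 : s ≠ 0 := fun h => by rw [h, map_zero] at hs; exact lt_irrefl _ hs
  obtain ⟨c, hc0, hc⟩ := hcof (r / s) (div_ne_zero hr0 hs0)
  have hc' : hv.v.restrict c ≠ 0 := by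
    rw [Ne, Valuation.restrict_eq_zero_iff, Valuation.zero_iff]
    exact hc0
  refine ⟨Units.mk0 _ hc', trivial, fun x hx => ?_⟩
  rw [Set.mem_ofPred_eq, Units.val_mk0, Valuation.restrict_lt_iff] at hx
  rw [Set.mem_ofPred_eq, ← hrs, ← map_div₀, Valuation.restrict_lt_iff]
  exact lt_of_lt_of_le (lt_of_isEquiv hι hx) hc

/-- the map induced on the completions -/
def mapHomE (ι : F →+* F') (hι : (hv'.v.comap ι).IsEquiv hv.v)
    (hcof : ∀ y' : F', y' ≠ 0 → ∃ c : F, c ≠ 0 ∧ hv'.v (ι c) ≤ hv'.v y') :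
    Completion F →+* Completion F' :=
  Completion.mapRingHom ι (continuous_of_isEquiv ι hι hcof)

theorem mapHomE_coe (ι : F →+* F') (hι : (hv'.v.comap ι).IsEquiv hv.v)
    (hcof : ∀ y' : F', y' ≠ 0 → ∃ c : F, c ≠ 0 ∧ hv'.v (ι c) ≤ hv'.v y') (x : F) :
    mapHomE ι hι hcof (x : Completion F) = ((ι x : F') : Completion F') :=
  Completion.mapRingHom_coe (continuous_of_isEquiv ι hι hcof) x

theorem continuous_mapHomE (ι : F →+* F') (hι : (hv'.v.comap ι).IsEquiv hv.v)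
    (hcof : ∀ y' : F', y' ≠ 0 → ∃ c : F, c ≠ 0 ∧ hv'.v (ι c) ≤ hv'.v y') :
    Continuous (mapHomE ι hι hcof) := by
  show Continuous (Completion.map ι)
  exact Completion.continuous_map

/-- **the values of `z` and of its image are the values of ONE element of `F`** -/
theorem exists_val_mapHomE (ι : F →+* F') (hι : (hv'.v.comap ι).IsEquiv hv.v)
    (hcof : ∀ y' : F', y' ≠ 0 → ∃ c : F, c ≠ 0 ∧ hv'.v (ι c) ≤ hv'.v y') (z : Completion F) :
    ∃ r : F, Valued.v z = hv.v r ∧ Valued.v (mapHomE ι hι hcof z) = hv'.v (ι r) := by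
  rcases eq_or_ne z 0 with rfl | hz
  · exact ⟨0, by rw [map_zero, map_zero], by rw [map_zero, map_zero, map_zero, map_zero]⟩
  have hιz : mapHomE ι hι hcof z ≠ 0 :=
    (map_ne_zero_iff _ (mapHomE ι hι hcof).injective).2 hz
  have h1 : {y : Completion F | Valued.v y = Valued.v z} ∈ 𝓝 z :=
    Valued.locally_const ((Valuation.ne_zero_iff _).2 hz)
  have h2 : {y : Completion F | Valued.v (mapHomE ι hι hcof y) =
      Valued.v (mapHomE ι hι hcof z)} ∈ 𝓝 z :=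
    (continuous_mapHomE ι hι hcof).continuousAt.preimage_mem_nhds
      (Valued.locally_const ((Valuation.ne_zero_iff _).2 hιz))
  obtain ⟨b, hb⟩ := Gen.exists_approx_mem z (Filter.inter_mem h1 h2)
  obtain ⟨hb1, hb2⟩ := hb
  rw [Set.mem_ofPred_eq] at hb1 hb2
  refine ⟨b, ?_, ?_⟩
  · rw [← hb1, Valued.valuedCompletion_apply]
  · rw [← hb2, mapHomE_coe, Valued.valuedCompletion_apply]

/-- compatibility with the extension of valuation-preserving endomorphisms -/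
theorem mapHomE_comp_extHom (ι : F →+* F') (hι : (hv'.v.comap ι).IsEquiv hv.v)
    (hcof : ∀ y' : F', y' ≠ 0 → ∃ c : F, c ≠ 0 ∧ hv'.v (ι c) ≤ hv'.v y')
    (σ : F →+* F) (hσ : ∀ x, hv.v (σ x) = hv.v x)
    (σ' : F' →+* F') (hσ' : ∀ x, hv'.v (σ' x) = hv'.v x)
    (hcomm : ∀ x, ι (σ x) = σ' (ι x)) :
    (mapHomE ι hι hcof).comp (Gen.extHom σ hσ) =
      (Gen.extHom σ' hσ').comp (mapHomE ι hι hcof) := by
  unfold mapHomE Gen.extHom
  rw [Completion.mapRingHom_comp, Completion.mapRingHom_comp]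
  congr 1
  exact RingHom.ext hcomm

end GenE

variable {F F' : Type*} [Field F] [Field F'] {Γ₀ Γ₀' : Type*}
  [LinearOrderedCommGroupWithZero Γ₀] [LinearOrderedCommGroupWithZero Γ₀']
  (v : Valuation F Γ₀) (v' : Valuation F' Γ₀')

/-- cofinality from `v' (ι c) ^ n → 0` -/
theorem hcofE_of_arch (ι : F →+* F') {c : F} (hc0 : c ≠ 0)
    (harch : ∀ γ : Γ₀', γ ≠ 0 → ∃ n : ℕ, v' (ι c) ^ n < γ) :
    ∀ y' : F', y' ≠ 0 → ∃ c' : F, c' ≠ 0 ∧ v' (ι c') ≤ v' y' := by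
  intro y' hy'
  obtain ⟨n, hn⟩ := harch (v' y') ((Valuation.ne_zero_iff _).2 hy')
  exact ⟨c ^ n, pow_ne_zero n hc0, by rw [map_pow, map_pow]; exact hn.le⟩

/-- **the map `Compl v → Compl v'` induced by an embedding with `v' ∘ ι ∼ v`** -/
def mapEmbE (ι : F →+* F') (hι : (v'.comap ι).IsEquiv v)
    (hcof : ∀ y' : F', y' ≠ 0 → ∃ c : F, c ≠ 0 ∧ v' (ι c) ≤ v' y') : Compl v →+* Compl v' :=
  letI := Valued.mk' v
  letI := Valued.mk' v'
  (GenE.mapHomE ι hι hcof : UniformSpace.Completion F →+* UniformSpace.Completion F')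

theorem mapEmbE_j (ι : F →+* F') (hι : (v'.comap ι).IsEquiv v)
    (hcof : ∀ y' : F', y' ≠ 0 → ∃ c : F, c ≠ 0 ∧ v' (ι c) ≤ v' y') (x : F) :
    mapEmbE v v' ι hι hcof (j v x) = j v' (ι x) := by
  let _ := Valued.mk' v
  let _ := Valued.mk' v'
  exact GenE.mapHomE_coe ι hι hcof x

theorem mapEmbE_injective (ι : F →+* F') (hι : (v'.comap ι).IsEquiv v)
    (hcof : ∀ y' : F', y' ≠ 0 → ∃ c : F, c ≠ 0 ∧ v' (ι c) ≤ v' y') :
    Function.Injective (mapEmbE v v' ι hι hcof) :=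
  (mapEmbE v v' ι hι hcof).injective

/-- **the values of `z` and of `mapEmbE z` are the values of ONE element of `F`** -/
theorem exists_val_mapEmbE (ι : F →+* F') (hι : (v'.comap ι).IsEquiv v)
    (hcof : ∀ y' : F', y' ≠ 0 → ∃ c : F, c ≠ 0 ∧ v' (ι c) ≤ v' y') (z : Compl v) :
    ∃ r : F, val v z = v r ∧ val v' (mapEmbE v v' ι hι hcof z) = v' (ι r) := by
  let _ := Valued.mk' v
  let _ := Valued.mk' v'
  exact GenE.exists_val_mapHomE ι hι hcof z

/-- **`mapEmbE` induces an equivalent valuation** -/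
theorem isEquiv_mapEmbE (ι : F →+* F') (hι : (v'.comap ι).IsEquiv v)
    (hcof : ∀ y' : F', y' ≠ 0 → ∃ c : F, c ≠ 0 ∧ v' (ι c) ≤ v' y') :
    ((val v').comap (mapEmbE v v' ι hι hcof)).IsEquiv (val v) := by
  intro z w
  obtain ⟨r, hr, hr'⟩ := exists_val_mapEmbE v v' ι hι hcof z
  obtain ⟨s, hs, hs'⟩ := exists_val_mapEmbE v v' ι hι hcof w
  rw [Valuation.comap_apply, Valuation.comap_apply, hr, hr', hs, hs']
  exact hι r s

theorem val_mapEmbE_le_one_iff (ι : F →+* F') (hι : (v'.comap ι).IsEquiv v)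
    (hcof : ∀ y' : F', y' ≠ 0 → ∃ c : F, c ≠ 0 ∧ v' (ι c) ≤ v' y') (z : Compl v) :
    val v' (mapEmbE v v' ι hι hcof z) ≤ 1 ↔ val v z ≤ 1 := by
  have h := isEquiv_mapEmbE v v' ι hι hcof z 1
  rwa [Valuation.comap_apply, Valuation.comap_apply, map_one, map_one, map_one] at h

theorem val_mapEmbE_lt_one_iff (ι : F →+* F') (hι : (v'.comap ι).IsEquiv v)
    (hcof : ∀ y' : F', y' ≠ 0 → ∃ c : F, c ≠ 0 ∧ v' (ι c) ≤ v' y') (z : Compl v) :
    val v' (mapEmbE v v' ι hι hcof z) < 1 ↔ val v z < 1 := by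
  have h := isEquiv_mapEmbE v v' ι hι hcof 1 z
  rw [Valuation.comap_apply, Valuation.comap_apply, map_one, map_one, map_one] at h
  rw [← not_le, ← not_le, h]

theorem val_mapEmbE_eq_one_iff (ι : F →+* F') (hι : (v'.comap ι).IsEquiv v)
    (hcof : ∀ y' : F', y' ≠ 0 → ∃ c : F, c ≠ 0 ∧ v' (ι c) ≤ v' y') (z : Compl v) :
    val v' (mapEmbE v v' ι hι hcof z) = 1 ↔ val v z = 1 := by
  constructor
  · intro h
    refine le_antisymm ((val_mapEmbE_le_one_iff v v' ι hι hcof z).1 h.le) (not_lt.1 fun hlt => ?_)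
    exact absurd h ((val_mapEmbE_lt_one_iff v v' ι hι hcof z).2 hlt).ne
  · intro h
    refine le_antisymm ((val_mapEmbE_le_one_iff v v' ι hι hcof z).2 h.le) (not_lt.1 fun hlt => ?_)
    exact absurd h ((val_mapEmbE_lt_one_iff v v' ι hι hcof z).1 hlt).ne

/-- **compatibility with `ext`**: `ι ∘ σ = σ' ∘ ι` ⟹ `mapEmbE ∘ σ̂ = σ̂' ∘ mapEmbE` -/
theorem mapEmbE_ext (ι : F →+* F') (hι : (v'.comap ι).IsEquiv v)
    (hcof : ∀ y' : F', y' ≠ 0 → ∃ c : F, c ≠ 0 ∧ v' (ι c) ≤ v' y')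
    (σ : F ≃+* F) (hσ : ∀ x, v (σ x) = v x) (σ' : F' ≃+* F') (hσ' : ∀ x, v' (σ' x) = v' x)
    (hcomm : ∀ x, ι (σ x) = σ' (ι x)) (z : Compl v) :
    mapEmbE v v' ι hι hcof (ext v σ hσ z) = ext v' σ' hσ' (mapEmbE v v' ι hι hcof z) := by
  let _ := Valued.mk' v
  let _ := Valued.mk' v'
  have h := GenE.mapHomE_comp_extHom ι hι hcof (σ : F →+* F) hσ (σ' : F' →+* F') hσ' hcomm
  exact congrArg (fun φ : UniformSpace.Completion F →+* UniformSpace.Completion F' => φ z) h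

/-- **the same `p`-th root at both levels** -/
theorem mapEmbE_root (ι : F →+* F') (hι : (v'.comap ι).IsEquiv v)
    (hcof : ∀ y' : F', y' ≠ 0 → ∃ c : F, c ≠ 0 ∧ v' (ι c) ≤ v' y') {p : ℕ} {z : F} {γ : Compl v}
    (hγ : γ ^ p = j v z) :
    (mapEmbE v v' ι hι hcof γ) ^ p = j v' (ι z) ∧
      (val v' (mapEmbE v v' ι hι hcof γ - 1) < 1 ↔ val v (γ - 1) < 1) := by
  refine ⟨by rw [← map_pow, hγ, mapEmbE_j], ?_⟩
  rw [← map_one (mapEmbE v v' ι hι hcof), ← map_sub, val_mapEmbE_lt_one_iff]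

end Fermat.Agent.GF.KCover.Compl
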